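/-
PROJECT R (S43), block L3 = `S43/Hecke/**`, brick H8 = Taylor-Wiles descent (`S43/Hecke/Descent/**`,
cut of helper24), sub-brick D3 (helper12): THE INSTANCE.

For a prime `q ∤ N`, a commutative ring `R` and an `R`-module `A`, on
`H = Hom(Γ₀(N), A)` and `H' = Hom(Γ₀(N q), A)`: the `R`-linear degeneracy maps
`a1 a2 : H → H'`, `b1 b2 : H' → H`, the operators `Uq Wq` on `H'`, `Tq` on `H`, and ALL the
identities which `Descent/Split` (D1, layer (C)) takes as hypotheses, from main's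
`S41/Deg/{Maps, NewAtQ, HeckeComm}` and `S41/PD/Level2`:

* `b1_a1`, `b2_a2` `= q + 1`; `b1_a2`, `b2_a1` `= Tq`;
* `Uq_a1 : Uq ∘ a1 = a1 ∘ Tq - a2`; `Uq_a2 : Uq ∘ a2 = q • a1`;
  `b1_Uq : b1 ∘ Uq = q • b2`; `b2_Uq : b2 ∘ Uq = Tq ∘ b2 - b1`;
* `Uq_Uq_of_ker : b1 y = 0 → b2 y = 0 → Uq (Uq y) = y`;
* `a2_eq`, `Wq_Wq`, `a1_b2`, `a1_b1`, `b1_Wq`, `b2_Wq` (the identities with `W`);
* the commutation with `τ_r`, `r ≠ q` prime: `a1_tau`, `a2_tau`, `b1_tau`, `b2_tau`, `Tq_tau`.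
-/
import Mathlib
import Fermat.Agent.S41.Deg.Maps
import Fermat.Agent.S41.Deg.NewAtQ
import Fermat.Agent.S41.Deg.HeckeComm
import Fermat.Agent.S41.PD.Level2

set_option autoImplicit false
set_option linter.unusedSectionVars false

open CongruenceSubgroup ModularCurve.Period
open scoped MatrixGroups

noncomputable section

namespace Fermat.Agent.S43.Hecke.Descent.Inst

open Fermat.Agent.S30.Hecke.DoubleCoset Fermat.Agent.S30.Hecke.Gamma0Cosets
  Fermat.Agent.S30.Hecke.Parabolic Fermat.Agent.S41.Deg.Maps Fermat.Agent.S41.Deg.NewAtQ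
  Fermat.Agent.S41.Deg.HeckeComm Fermat.Agent.S41.PD.Level2

variable (R : Type*) [CommRing R] (A : Type*) [AddCommGroup A] [Module R A]
variable {N q : ℕ} (hq : q.Prime) (hqN : ¬ q ∣ N)

/-! ### the seven maps -/

/-- restriction `Hom(Γ₀(N), A) → Hom(Γ₀(N q), A)` -/
def a1 (N q : ℕ) : (Additive (Gamma0 N) →+ A) →ₗ[R] (Additive (Gamma0 (N * q)) →+ A) :=
  (resD N q).heckeLin R

/-- restriction after conjugation by `diag(q, 1)` -/
def a2 : (Additive (Gamma0 N) →+ A) →ₗ[R] (Additive (Gamma0 (N * q)) →+ A) :=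
  (conjD hq hqN).heckeLin R

/-- corestriction -/
def b1 : (Additive (Gamma0 (N * q)) →+ A) →ₗ[R] (Additive (Gamma0 N) →+ A) :=
  (coresD hq hqN).heckeLin R

/-- corestriction after conjugation -/
def b2 : (Additive (Gamma0 (N * q)) →+ A) →ₗ[R] (Additive (Gamma0 N) →+ A) :=
  (coresStarD hq hqN).heckeLin R

/-- `U_q` at level `N q` -/
def Uq (N : ℕ) : (Additive (Gamma0 (N * q)) →+ A) →ₗ[R] (Additive (Gamma0 (N * q)) →+ A) :=
  (Ud (N := N) hq).heckeLin R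

/-- the Atkin-Lehner operator at `q`, level `N q` -/
def Wq : (Additive (Gamma0 (N * q)) →+ A) →ₗ[R] (Additive (Gamma0 (N * q)) →+ A) :=
  (Wd hq hqN).heckeLin R

/-- `T_q` at level `N` -/
def Tq : (Additive (Gamma0 N) →+ A) →ₗ[R] (Additive (Gamma0 N) →+ A) :=
  (cosetT hq hqN).heckeLin R

/-- `τ_r` at any level (`T_r` or `U_r`), `R`-linear: main's `tauAllLin` -/
abbrev tau (N r : ℕ) (hr : r.Prime) :
    (Additive (Gamma0 N) →+ A) →ₗ[R] (Additive (Gamma0 N) →+ A) :=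
  tauAllLin R A N r hr

@[simp] theorem a1_apply (φ : Additive (Gamma0 N) →+ A) : a1 R A N q φ = alpha1 N q φ := rfl

@[simp] theorem a2_apply (φ : Additive (Gamma0 N) →+ A) :
    a2 R A hq hqN φ = alpha2 hq hqN φ := rfl

@[simp] theorem b1_apply (y : Additive (Gamma0 (N * q)) →+ A) :
    b1 R A hq hqN y = beta1 hq hqN y := rfl

@[simp] theorem b2_apply (y : Additive (Gamma0 (N * q)) →+ A) :
    b2 R A hq hqN y = beta2 hq hqN y := rfl

@[simp] theorem Uq_apply (y : Additive (Gamma0 (N * q)) →+ A) :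
    Uq R A hq N y = Uop hq N y := rfl

@[simp] theorem Wq_apply (y : Additive (Gamma0 (N * q)) →+ A) :
    Wq R A hq hqN y = Wop hq hqN y := rfl

@[simp] theorem Tq_apply (φ : Additive (Gamma0 N) →+ A) : Tq R A hq hqN φ = tauT hq hqN φ := rfl

theorem Uq_eq_tau : Uq R A hq N = tau R A (N * q) q hq := by
  refine LinearMap.ext fun y => ?_
  rw [Uq_apply, Uop_eq_tauAll, tauAllLin_apply]

theorem Tq_eq_tau : Tq R A hq hqN = tau R A N q hq := by
  refine LinearMap.ext fun φ => ?_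
  rw [Tq_apply, tauAllLin_apply]
  unfold tauAll
  rw [dif_neg hqN]

/-! ### the identities between the two levels -/

/-- **`β₁ α₁ = q + 1`** -/
theorem b1_a1 : (b1 R A hq hqN) ∘ₗ (a1 R A N q) = ((q : R) + 1) • LinearMap.id := by
  refine LinearMap.ext fun φ => ?_
  have h := beta1_alpha1 hq hqN φ
  rw [LinearMap.comp_apply, a1_apply, b1_apply, h, LinearMap.smul_apply, LinearMap.id_apply]
  have : ((q : R) + 1) = ((q + 1 : ℕ) : R) := by push_cast; rfl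
  rw [this, Nat.cast_smul_eq_nsmul]

/-- **`β₂ α₂ = q + 1`** -/
theorem b2_a2 : (b2 R A hq hqN) ∘ₗ (a2 R A hq hqN) = ((q : R) + 1) • LinearMap.id := by
  refine LinearMap.ext fun φ => ?_
  have h := beta2_alpha2 hq hqN φ
  rw [LinearMap.comp_apply, a2_apply, b2_apply, h, LinearMap.smul_apply, LinearMap.id_apply]
  have : ((q : R) + 1) = ((q + 1 : ℕ) : R) := by push_cast; rfl
  rw [this, Nat.cast_smul_eq_nsmul]

/-- **`β₁ α₂ = T_q`** -/
theorem b1_a2 : (b1 R A hq hqN) ∘ₗ (a2 R A hq hqN) = Tq R A hq hqN :=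
  LinearMap.ext fun φ => beta1_alpha2 hq hqN φ

/-- **`β₂ α₁ = T_q`** -/
theorem b2_a1 : (b2 R A hq hqN) ∘ₗ (a1 R A N q) = Tq R A hq hqN :=
  LinearMap.ext fun φ => beta2_alpha1 hq hqN φ

/-- **`α₂ = W α₁`** -/
theorem a2_eq : a2 R A hq hqN = (Wq R A hq hqN) ∘ₗ (a1 R A N q) :=
  LinearMap.ext fun φ => alpha2_eq_W_alpha1 hq hqN φ

/-- **`W W = 1`** -/
theorem Wq_Wq : (Wq R A hq hqN) ∘ₗ (Wq R A hq hqN) = LinearMap.id :=
  LinearMap.ext fun y => Wop_Wop hq hqN y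

/-- **`α₁ β₂ = U + W`** -/
theorem a1_b2 : (a1 R A N q) ∘ₗ (b2 R A hq hqN) = Uq R A hq N + Wq R A hq hqN :=
  LinearMap.ext fun y => alpha1_beta2 hq hqN y

/-- **`α₁ β₁ = 1 + U W`** -/
theorem a1_b1 :
    (a1 R A N q) ∘ₗ (b1 R A hq hqN) = LinearMap.id + (Uq R A hq N) ∘ₗ (Wq R A hq hqN) :=
  LinearMap.ext fun y => alpha1_beta1 hq hqN y

/-- **`β₁ W = β₂`** -/
theorem b1_Wq : (b1 R A hq hqN) ∘ₗ (Wq R A hq hqN) = b2 R A hq hqN :=
  LinearMap.ext fun y => beta1_W hq hqN y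

/-- **`β₂ W = β₁`** -/
theorem b2_Wq : (b2 R A hq hqN) ∘ₗ (Wq R A hq hqN) = b1 R A hq hqN :=
  LinearMap.ext fun y => beta2_W hq hqN y

/-- `U = α₁ β₂ - W` -/
theorem Uq_eq : Uq R A hq N = (a1 R A N q) ∘ₗ (b2 R A hq hqN) - Wq R A hq hqN := by
  rw [a1_b2, add_sub_cancel_right]

/-- **`U α₁ = α₁ T_q - α₂`** -/
theorem Uq_a1 :
    (Uq R A hq N) ∘ₗ (a1 R A N q) = (a1 R A N q) ∘ₗ (Tq R A hq hqN) - a2 R A hq hqN := by
  rw [Uq_eq R A hq hqN, LinearMap.sub_comp, LinearMap.comp_assoc, b2_a1, ← a2_eq]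

/-- **`U α₂ = q α₁`** -/
theorem Uq_a2 : (Uq R A hq N) ∘ₗ (a2 R A hq hqN) = (q : R) • a1 R A N q := by
  rw [Uq_eq R A hq hqN, LinearMap.sub_comp, LinearMap.comp_assoc, b2_a2, a2_eq R A hq hqN,
    ← LinearMap.comp_assoc, Wq_Wq, LinearMap.id_comp, LinearMap.comp_smul, LinearMap.comp_id,
    add_smul, one_smul, add_sub_cancel_right]

/-- **`β₁ U = q β₂`** -/
theorem b1_Uq : (b1 R A hq hqN) ∘ₗ (Uq R A hq N) = (q : R) • b2 R A hq hqN := by
  rw [Uq_eq R A hq hqN, LinearMap.comp_sub, ← LinearMap.comp_assoc, b1_a1, b1_Wq,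
    LinearMap.smul_comp, LinearMap.id_comp, add_smul, one_smul, add_sub_cancel_right]

/-- **`β₂ U = T_q β₂ - β₁`** -/
theorem b2_Uq :
    (b2 R A hq hqN) ∘ₗ (Uq R A hq N) = (Tq R A hq hqN) ∘ₗ (b2 R A hq hqN) - b1 R A hq hqN := by
  rw [Uq_eq R A hq hqN, LinearMap.comp_sub, ← LinearMap.comp_assoc, b2_a1, b2_Wq]

/-- **`U U = 1` on `ker β₁ ∩ ker β₂`** (the `q`-new part) -/
theorem Uq_Uq_of_ker (y : Additive (Gamma0 (N * q)) →+ A) (h1 : b1 R A hq hqN y = 0)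
    (h2 : b2 R A hq hqN y = 0) : Uq R A hq N (Uq R A hq N y) = y :=
  Uop_Uop_of_mem_ker hq hqN y h1 h2

/-- **`U` preserves `ker β₁ ∩ ker β₂`** -/
theorem b_Uq_of_ker (y : Additive (Gamma0 (N * q)) →+ A) (h1 : b1 R A hq hqN y = 0)
    (h2 : b2 R A hq hqN y = 0) :
    b1 R A hq hqN (Uq R A hq N y) = 0 ∧ b2 R A hq hqN (Uq R A hq N y) = 0 :=
  beta_Uop_of_mem_ker hq hqN y h1 h2

/-! ### commutation with the Hecke operators away from `q` -/

section Comm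

variable {r : ℕ} (hr : r.Prime) (hrq : r ≠ q)

include hq hrq in
/-- **`α₁ τ_r = τ_r α₁`** -/
theorem a1_tau : (a1 R A N q) ∘ₗ (tau R A N r hr) = (tau R A (N * q) r hr) ∘ₗ (a1 R A N q) := by
  refine LinearMap.ext fun φ => ?_
  rw [LinearMap.comp_apply, LinearMap.comp_apply, tauAllLin_apply, tauAllLin_apply, a1_apply,
    a1_apply]
  exact alpha1_tauAll hq hr hrq φ

include hrq in
/-- **`α₂ τ_r = τ_r α₂`** -/
theorem a2_tau :
    (a2 R A hq hqN) ∘ₗ (tau R A N r hr) = (tau R A (N * q) r hr) ∘ₗ (a2 R A hq hqN) := by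
  refine LinearMap.ext fun φ => ?_
  rw [LinearMap.comp_apply, LinearMap.comp_apply, tauAllLin_apply, tauAllLin_apply, a2_apply,
    a2_apply]
  exact alpha2_tauAll hq hqN hr hrq φ

include hrq in
/-- **`β₁ τ_r = τ_r β₁`** -/
theorem b1_tau :
    (b1 R A hq hqN) ∘ₗ (tau R A (N * q) r hr) = (tau R A N r hr) ∘ₗ (b1 R A hq hqN) := by
  refine LinearMap.ext fun y => ?_
  rw [LinearMap.comp_apply, LinearMap.comp_apply, tauAllLin_apply, tauAllLin_apply, b1_apply,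
    b1_apply]
  exact beta1_tauAll hq hqN hr hrq y

include hrq in
/-- **`β₂ τ_r = τ_r β₂`** -/
theorem b2_tau :
    (b2 R A hq hqN) ∘ₗ (tau R A (N * q) r hr) = (tau R A N r hr) ∘ₗ (b2 R A hq hqN) := by
  refine LinearMap.ext fun y => ?_
  rw [LinearMap.comp_apply, LinearMap.comp_apply, tauAllLin_apply, tauAllLin_apply, b2_apply,
    b2_apply]
  exact beta2_tauAll hq hqN hr hrq y

include hrq in
/-- **`T_q τ_r = τ_r T_q`** at level `N` (from `T_q = β₁ α₂`) -/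
theorem Tq_tau :
    (Tq R A hq hqN) ∘ₗ (tau R A N r hr) = (tau R A N r hr) ∘ₗ (Tq R A hq hqN) := by
  rw [← b1_a2, LinearMap.comp_assoc, a2_tau R A hq hqN hr hrq, ← LinearMap.comp_assoc,
    b1_tau R A hq hqN hr hrq, LinearMap.comp_assoc]

end Comm

end Fermat.Agent.S43.Hecke.Descent.Inst
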