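/-
PROJECT R (S43, row 37), block L3 (Hecke side), brick H8/D1 (helper6; helper24's cut):
THE TAYLOR-WILES DESCENT, PURE ALGEBRA.

(G) `bijective_map_of_split` : `f : N → M`, `g : M → N'`, `a : N' → N` linear over a commutative
ring `P`, `a ∘ g ∘ f = s₁`, `g ∘ f ∘ a ∘ g = s₁ • g`, `s₂` kills `ker g` : then the localisation of
`f` at any submonoid containing `s₁` and `s₂` is bijective.

(C) the degeneracy maps : `H`, `H'` modules over `R` with commuting families of operators
`t`, `t'` indexed by `J`; `j₀ : J` is the index of `τ = T_q` on `H` and of `U = U_q` on `H'`;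
`α1 α2 : H → H'`, `β1 β2 : H' → H` with the identities of `S41/Deg` as hypotheses (`Hyp`).
`Nq = H × H` with `X j₀` acting as `(x, y) ↦ (τ x + q y, - x)` and `X j` as `t j × t j` otherwise;
`iota (x, y) = α1 x + α2 y` is linear over `MvPolynomial J R`, and its localisation at every
submonoid containing `s1 = (q + 1)² X² - (X² + q)²` and `s2 = X² - 1` (`X = X j₀`) is bijective
(`bijective_map_iota`).
-/
import Mathlib
import Fermat.Agent.S43.Hecke.PolyModule

set_option autoImplicit false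

noncomputable section

namespace Fermat.Agent.S43.Hecke.Descent.Split

open Fermat.Agent.S43.Hecke.PolyModule

/-! ### (G) the abstract splitting lemma -/

section General

variable {P : Type*} [CommRing P] (S : Submonoid P)
  {N M N' : Type*} [AddCommGroup N] [Module P N] [AddCommGroup M] [Module P M]
  [AddCommGroup N'] [Module P N']
  {NS MS : Type*} [AddCommGroup NS] [Module P NS] [AddCommGroup MS] [Module P MS]
  (φN : N →ₗ[P] NS) (φM : M →ₗ[P] MS) [IsLocalizedModule S φN] [IsLocalizedModule S φM]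

/-- **(G)** a map which is split up to `s₁` with a complement killed by `s₂` becomes bijective
after inverting `s₁` and `s₂`. -/
theorem bijective_map_of_split (f : N →ₗ[P] M) (g : M →ₗ[P] N') (a : N' →ₗ[P] N) (s₁ s₂ : P)
    (h1 : ∀ n, a (g (f n)) = s₁ • n) (h2 : ∀ m, g (f (a (g m))) = s₁ • g m)
    (h3 : ∀ m, g m = 0 → s₂ • m = 0) (hs₁ : s₁ ∈ S) (hs₂ : s₂ ∈ S) :
    Function.Bijective (IsLocalizedModule.map S φN φM f) := by
  constructor
  · rw [injective_iff_map_eq_zero]
    intro y hy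
    obtain ⟨⟨n, s⟩, hs⟩ := IsLocalizedModule.surj S φN y
    have hs' : (s : P) • y = φN n := hs
    have h0 : φM (f n) = 0 := by
      rw [← IsLocalizedModule.map_apply S φN φM f n, ← hs', map_smul, hy, smul_zero]
    obtain ⟨c, hc⟩ := (IsLocalizedModule.eq_zero_iff S φM).mp h0
    have hc' : f ((c : P) • n) = 0 := by
      rw [map_smul]
      exact hc
    have h4 : (s₁ * (c : P)) • n = 0 := by
      rw [mul_smul, ← h1, hc', map_zero, map_zero]
    have h5 : φN n = 0 :=
      (IsLocalizedModule.eq_zero_iff S φN).mpr ⟨⟨s₁, hs₁⟩ * c, h4⟩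
    have h6 : s • y = s • (0 : NS) := by
      rw [smul_zero]
      change (s : P) • y = 0
      rw [hs', h5]
    exact IsLocalizedModule.smul_injective φN s h6
  · intro z
    obtain ⟨⟨m, s⟩, hs⟩ := IsLocalizedModule.surj S φM z
    have hs' : (s : P) • z = φM m := hs
    -- `s₂ s₁ m` is in the image
    have hker : g (s₁ • m - f (a (g m))) = 0 := by
      rw [map_sub, map_smul, h2, sub_self]
    have h4 : (s₂ * s₁) • m = f (s₂ • a (g m)) := by
      have := h3 _ hker
      rw [smul_sub, sub_eq_zero] at this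
      rw [mul_smul, this, map_smul]
    set t : S := s * (⟨s₂, hs₂⟩ * ⟨s₁, hs₁⟩) with ht
    have htP : (t : P) = (s : P) * (s₂ * s₁) := rfl
    refine ⟨IsLocalizedModule.mk' φN (s₂ • a (g m)) t, ?_⟩
    apply IsLocalizedModule.smul_injective φM t
    change (t : P) • (IsLocalizedModule.map S φN φM f) (IsLocalizedModule.mk' φN (s₂ • a (g m)) t)
      = (t : P) • z
    have h7 : (t : P) • IsLocalizedModule.mk' φN (s₂ • a (g m)) t = φN (s₂ • a (g m)) :=
      IsLocalizedModule.mk'_cancel' φN _ t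
    rw [← map_smul, h7, IsLocalizedModule.map_apply, ← h4, map_smul, ← hs', smul_smul, htP,
      mul_comm]

end General

/-! ### (C) the degeneracy maps -/

section Concrete

variable {R : Type*} [CommRing R] {J : Type*} [DecidableEq J] (j₀ : J)
  {H H' : Type*} [AddCommGroup H] [Module R H] [AddCommGroup H'] [Module R H']

/-- the identities between the degeneracy maps `α1 α2 : H → H'`, `β1 β2 : H' → H` (level `N` and
level `N q`); `t j₀ = T_q` on `H`, `t' j₀ = U_q` on `H'`. -/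
structure Hyp (t : J → Module.End R H) (t' : J → Module.End R H') (q : R)
    (α1 α2 : H →ₗ[R] H') (β1 β2 : H' →ₗ[R] H) : Prop where
  comm : ∀ i j, Commute (t i) (t j)
  comm' : ∀ i j, Commute (t' i) (t' j)
  α1_t : ∀ j, j ≠ j₀ → ∀ x, α1 (t j x) = t' j (α1 x)
  α2_t : ∀ j, j ≠ j₀ → ∀ x, α2 (t j x) = t' j (α2 x)
  β1_t : ∀ j, j ≠ j₀ → ∀ m, β1 (t' j m) = t j (β1 m)
  β2_t : ∀ j, j ≠ j₀ → ∀ m, β2 (t' j m) = t j (β2 m)
  β1α1 : ∀ x, β1 (α1 x) = (q + 1) • x
  β2α2 : ∀ x, β2 (α2 x) = (q + 1) • x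
  β1α2 : ∀ x, β1 (α2 x) = t j₀ x
  β2α1 : ∀ x, β2 (α1 x) = t j₀ x
  Uα1 : ∀ x, t' j₀ (α1 x) = α1 (t j₀ x) - α2 x
  Uα2 : ∀ x, t' j₀ (α2 x) = q • α1 x
  β1U : ∀ m, β1 (t' j₀ m) = q • β2 m
  β2U : ∀ m, β2 (t' j₀ m) = t j₀ (β2 m) - β1 m
  UU : ∀ m, β1 m = 0 → β2 m = 0 → t' j₀ (t' j₀ m) = m

omit [DecidableEq J] in
/-- `Hyp` from the primitive identities of `S41/Deg` (with the Atkin-Lehner operator `W`). -/
theorem Hyp.of_W {t : J → Module.End R H} {t' : J → Module.End R H'} {q : R}
    {α1 α2 : H →ₗ[R] H'} {β1 β2 : H' →ₗ[R] H} (W : Module.End R H')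
    (comm : ∀ i j, Commute (t i) (t j)) (comm' : ∀ i j, Commute (t' i) (t' j))
    (α1_t : ∀ j, j ≠ j₀ → ∀ x, α1 (t j x) = t' j (α1 x))
    (α2_t : ∀ j, j ≠ j₀ → ∀ x, α2 (t j x) = t' j (α2 x))
    (β1_t : ∀ j, j ≠ j₀ → ∀ m, β1 (t' j m) = t j (β1 m))
    (β2_t : ∀ j, j ≠ j₀ → ∀ m, β2 (t' j m) = t j (β2 m))
    (β1α1 : ∀ x, β1 (α1 x) = (q + 1) • x) (β2α2 : ∀ x, β2 (α2 x) = (q + 1) • x)
    (β1α2 : ∀ x, β1 (α2 x) = t j₀ x) (β2α1 : ∀ x, β2 (α1 x) = t j₀ x)
    (α1β2 : ∀ m, α1 (β2 m) = t' j₀ m + W m) (α1β1 : ∀ m, α1 (β1 m) = m + t' j₀ (W m))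
    (β1W : ∀ m, β1 (W m) = β2 m) (β2W : ∀ m, β2 (W m) = β1 m)
    (α2W : ∀ x, α2 x = W (α1 x)) (WW : ∀ m, W (W m) = m) :
    Hyp j₀ t t' q α1 α2 β1 β2 where
  comm := comm
  comm' := comm'
  α1_t := α1_t
  α2_t := α2_t
  β1_t := β1_t
  β2_t := β2_t
  β1α1 := β1α1
  β2α2 := β2α2
  β1α2 := β1α2
  β2α1 := β2α1
  Uα1 x := by
    have h := α1β2 (α1 x)
    rw [β2α1, ← α2W] at h
    rw [h]
    abel
  Uα2 x := by
    have h := α1β2 (α2 x)
    rw [β2α2, α2W x, WW, map_smul] at h
    have h' : t' j₀ (W (α1 x)) = (q + 1) • α1 x - α1 x := by rw [h]; abel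
    rw [α2W x, h']
    module
  β1U m := by
    have h := congrArg β1 (α1β2 m)
    rw [β1α1, map_add, β1W] at h
    have h' : β1 (t' j₀ m) = (q + 1) • β2 m - β2 m := by rw [h]; abel
    rw [h']
    module
  β2U m := by
    have h := congrArg β2 (α1β2 m)
    rw [β2α1, map_add, β2W] at h
    rw [h]
    abel
  UU m h1 h2 := by
    have hW : W m = -t' j₀ m := by
      have h := α1β2 m
      rw [h2, map_zero] at h
      exact eq_neg_of_add_eq_zero_right h.symm
    have h := α1β1 m
    rw [h1, map_zero, hW, map_neg] at h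
    have h3 : m - t' j₀ (t' j₀ m) = 0 := by rw [sub_eq_add_neg]; exact h.symm
    exact (sub_eq_zero.mp h3).symm

/-- `X` on `N = H × H` : `(x, y) ↦ (τ x + q y, - x)`. -/
def XN (τ : Module.End R H) (q : R) : Module.End R (H × H) where
  toFun p := (τ p.1 + q • p.2, -p.1)
  map_add' p p' := by
    ext
    · simp only [Prod.fst_add, Prod.snd_add, map_add, smul_add]; abel
    · simp only [Prod.fst_add, Prod.snd_add, neg_add]
  map_smul' r p := by
    ext
    · simp only [Prod.smul_fst, Prod.smul_snd, map_smul, RingHom.id_apply, smul_add,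
        smul_comm q r]
    · simp only [Prod.smul_fst, Prod.smul_snd, RingHom.id_apply, smul_neg]

/-- `X` on `N† = H × H` : `(x, y) ↦ (q y, - x + τ y)`. -/
def XD (τ : Module.End R H) (q : R) : Module.End R (H × H) where
  toFun p := (q • p.2, -p.1 + τ p.2)
  map_add' p p' := by
    ext
    · simp only [Prod.fst_add, Prod.snd_add, smul_add]
    · simp only [Prod.fst_add, Prod.snd_add, map_add, neg_add]; abel
  map_smul' r p := by
    ext
    · simp only [Prod.smul_fst, Prod.smul_snd, RingHom.id_apply, smul_comm q r]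
    · simp only [Prod.smul_fst, Prod.smul_snd, map_smul, RingHom.id_apply, smul_add, smul_neg]

/-- the adjugate `(x, y) ↦ ((q + 1) x - τ y, - τ x + (q + 1) y)`. -/
def adjLin (τ : Module.End R H) (q : R) : Module.End R (H × H) where
  toFun p := ((q + 1) • p.1 - τ p.2, -τ p.1 + (q + 1) • p.2)
  map_add' p p' := by
    ext
    · simp only [Prod.fst_add, Prod.snd_add, map_add, smul_add]; abel
    · simp only [Prod.fst_add, Prod.snd_add, map_add, smul_add, neg_add]; abel
  map_smul' r p := by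
    ext
    · simp only [Prod.smul_fst, Prod.smul_snd, map_smul, RingHom.id_apply, smul_sub,
        smul_comm (q + 1) r]
    · simp only [Prod.smul_fst, Prod.smul_snd, map_smul, RingHom.id_apply, smul_add, smul_neg,
        smul_comm (q + 1) r]

@[simp] theorem XN_apply (τ : Module.End R H) (q : R) (p : H × H) :
    XN τ q p = (τ p.1 + q • p.2, -p.1) := rfl

@[simp] theorem XD_apply (τ : Module.End R H) (q : R) (p : H × H) :
    XD τ q p = (q • p.2, -p.1 + τ p.2) := rfl

@[simp] theorem adjLin_apply (τ : Module.End R H) (q : R) (p : H × H) :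
    adjLin τ q p = ((q + 1) • p.1 - τ p.2, -τ p.1 + (q + 1) • p.2) := rfl

/-! #### the pointwise identities on `H × H` -/

section Pointwise

variable (τ : Module.End R H) (q : R)

/-- Cayley-Hamilton on `N` : `X² + q = τ X`. -/
theorem XN_XN (p : H × H) : XN τ q (XN τ q p) + q • p = (τ.prodMap τ) (XN τ q p) := by
  ext
  · simp only [XN_apply, LinearMap.prodMap_apply, Prod.fst_add, Prod.smul_fst, map_add, map_smul,
      smul_neg]
    abel
  · simp only [XN_apply, LinearMap.prodMap_apply, Prod.snd_add, Prod.smul_snd, map_neg, neg_add]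
    abel

/-- Cayley-Hamilton on `N†`. -/
theorem XD_XD (p : H × H) : XD τ q (XD τ q p) + q • p = (τ.prodMap τ) (XD τ q p) := by
  ext
  · simp only [XD_apply, LinearMap.prodMap_apply, Prod.fst_add, Prod.smul_fst, map_smul, smul_add,
      smul_neg]
    abel
  · simp only [XD_apply, LinearMap.prodMap_apply, Prod.snd_add, Prod.smul_snd, map_add, map_neg]
    abel

theorem prodMap_XN (p : H × H) : (τ.prodMap τ) (XN τ q p) = XN τ q ((τ.prodMap τ) p) := by
  ext
  · simp only [XN_apply, LinearMap.prodMap_apply, map_add, map_smul]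
  · simp only [XN_apply, LinearMap.prodMap_apply, map_neg]

theorem prodMap_XD (p : H × H) : (τ.prodMap τ) (XD τ q p) = XD τ q ((τ.prodMap τ) p) := by
  ext
  · simp only [XD_apply, LinearMap.prodMap_apply, map_smul]
  · simp only [XD_apply, LinearMap.prodMap_apply, map_add, map_neg]

theorem adjLin_XD (p : H × H) : adjLin τ q (XD τ q p) = XN τ q (adjLin τ q p) := by
  ext
  · simp only [adjLin_apply, XD_apply, XN_apply, map_add, map_sub, map_neg, map_smul]
    module
  · simp only [adjLin_apply, XD_apply, XN_apply, map_add, map_sub, map_neg, map_smul]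
    module

variable {τ} in
theorem prodMap_comm_XN {σ : Module.End R H} (h : Commute τ σ) (p : H × H) :
    (σ.prodMap σ) (XN τ q p) = XN τ q ((σ.prodMap σ) p) := by
  have hc : ∀ x, σ (τ x) = τ (σ x) := fun x => (LinearMap.congr_fun h.eq x).symm
  ext
  · simp only [XN_apply, LinearMap.prodMap_apply, map_add, map_smul, hc]
  · simp only [XN_apply, LinearMap.prodMap_apply, map_neg]

variable {τ} in
theorem prodMap_comm_XD {σ : Module.End R H} (h : Commute τ σ) (p : H × H) :
    (σ.prodMap σ) (XD τ q p) = XD τ q ((σ.prodMap σ) p) := by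
  have hc : ∀ x, σ (τ x) = τ (σ x) := fun x => (LinearMap.congr_fun h.eq x).symm
  ext
  · simp only [XD_apply, LinearMap.prodMap_apply, map_smul]
  · simp only [XD_apply, LinearMap.prodMap_apply, map_add, map_neg, hc]

variable {τ} in
theorem prodMap_comm_adjLin {σ : Module.End R H} (h : Commute τ σ) (p : H × H) :
    adjLin τ q ((σ.prodMap σ) p) = (σ.prodMap σ) (adjLin τ q p) := by
  have hc : ∀ x, σ (τ x) = τ (σ x) := fun x => (LinearMap.congr_fun h.eq x).symm
  ext
  · simp only [adjLin_apply, LinearMap.prodMap_apply, map_sub, map_smul, hc]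
  · simp only [adjLin_apply, LinearMap.prodMap_apply, map_add, map_neg, map_smul, hc]

end Pointwise

/-! #### the operators on `N` and `N†` -/

section Ops

variable (t : J → Module.End R H) (q : R)

/-- the operators on `N = H × H` : `X j₀ ↦ XN`, `X j ↦ t j × t j`. -/
def opsN (j : J) : Module.End R (H × H) :=
  if j = j₀ then XN (t j₀) q else (t j).prodMap (t j)

/-- the operators on `N† = H × H` : `X j₀ ↦ XD`, `X j ↦ t j × t j`. -/
def opsD (j : J) : Module.End R (H × H) :=
  if j = j₀ then XD (t j₀) q else (t j).prodMap (t j)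

theorem opsN_self : opsN j₀ t q j₀ = XN (t j₀) q := if_pos rfl

theorem opsD_self : opsD j₀ t q j₀ = XD (t j₀) q := if_pos rfl

theorem opsN_of_ne {j : J} (h : j ≠ j₀) : opsN j₀ t q j = (t j).prodMap (t j) := if_neg h

theorem opsD_of_ne {j : J} (h : j ≠ j₀) : opsD j₀ t q j = (t j).prodMap (t j) := if_neg h

theorem prodMap_comm {σ σ' : Module.End R H} (h : Commute σ σ') :
    Commute (σ.prodMap σ : Module.End R (H × H)) (σ'.prodMap σ') := by
  have hc : ∀ x, σ (σ' x) = σ' (σ x) := fun x => LinearMap.congr_fun h.eq x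
  refine LinearMap.ext fun p => ?_
  rw [Module.End.mul_apply, Module.End.mul_apply]
  ext
  · simp only [LinearMap.prodMap_apply, hc]
  · simp only [LinearMap.prodMap_apply, hc]

theorem opsN_comm (hcomm : ∀ i j, Commute (t i) (t j)) (i j : J) :
    Commute (opsN j₀ t q i) (opsN j₀ t q j) := by
  by_cases hi : i = j₀ <;> by_cases hj : j = j₀
  · rw [hi, hj]
  · rw [hi, opsN_self, opsN_of_ne j₀ t q hj]
    refine LinearMap.ext fun p => ?_
    rw [Module.End.mul_apply, Module.End.mul_apply]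
    exact (prodMap_comm_XN q (hcomm j₀ j) p).symm
  · rw [hj, opsN_self, opsN_of_ne j₀ t q hi]
    refine LinearMap.ext fun p => ?_
    rw [Module.End.mul_apply, Module.End.mul_apply]
    exact prodMap_comm_XN q (hcomm j₀ i) p
  · rw [opsN_of_ne j₀ t q hi, opsN_of_ne j₀ t q hj]
    exact prodMap_comm (hcomm i j)

theorem opsD_comm (hcomm : ∀ i j, Commute (t i) (t j)) (i j : J) :
    Commute (opsD j₀ t q i) (opsD j₀ t q j) := by
  by_cases hi : i = j₀ <;> by_cases hj : j = j₀
  · rw [hi, hj]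
  · rw [hi, opsD_self, opsD_of_ne j₀ t q hj]
    refine LinearMap.ext fun p => ?_
    rw [Module.End.mul_apply, Module.End.mul_apply]
    exact (prodMap_comm_XD q (hcomm j₀ j) p).symm
  · rw [hj, opsD_self, opsD_of_ne j₀ t q hi]
    refine LinearMap.ext fun p => ?_
    rw [Module.End.mul_apply, Module.End.mul_apply]
    exact prodMap_comm_XD q (hcomm j₀ i) p
  · rw [opsD_of_ne j₀ t q hi, opsD_of_ne j₀ t q hj]
    exact prodMap_comm (hcomm i j)

end Ops

/-! #### the modules over the polynomial ring and the theorem -/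

section Main

variable {j₀} {t : J → Module.End R H} {t' : J → Module.End R H'} {q : R}
  {α1 α2 : H →ₗ[R] H'} {β1 β2 : H' →ₗ[R] H} (hy : Hyp j₀ t t' q α1 α2 β1 β2)

/-- `N = H × H` as a module over the polynomial ring. -/
abbrev Nq : Type _ := WithOps (opsN j₀ t q) (opsN_comm j₀ t q hy.comm)

/-- `N† = H × H` as a module over the polynomial ring. -/
abbrev Dq : Type _ := WithOps (opsD j₀ t q) (opsD_comm j₀ t q hy.comm)

/-- `H'` as a module over the polynomial ring. -/
abbrev Hq : Type _ := WithOps t' hy.comm'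

/-- the identification `Nq ≃ H × H`. -/
abbrev eN : Nq hy ≃ₗ[R] H × H := WithOps.equiv _ _

/-- the identification `Dq ≃ H × H`. -/
abbrev eD : Dq hy ≃ₗ[R] H × H := WithOps.equiv _ _

/-- the identification `Hq ≃ H'`. -/
abbrev eH : Hq hy ≃ₗ[R] H' := WithOps.equiv _ _

include hy in
theorem coprod_intertwine (j : J) (p : H × H) :
    (α1.coprod α2) (opsN j₀ t q j p) = t' j ((α1.coprod α2) p) := by
  by_cases hj : j = j₀
  · rw [hj, opsN_self]
    simp only [LinearMap.coprod_apply, XN_apply, map_add, map_neg, map_smul, hy.Uα1, hy.Uα2]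
    abel
  · rw [opsN_of_ne j₀ t q hj]
    simp only [LinearMap.coprod_apply, LinearMap.prodMap_apply, map_add, hy.α1_t j hj,
      hy.α2_t j hj]

include hy in
theorem prod_intertwine (j : J) (m : H') :
    (β1.prod β2) (t' j m) = opsD j₀ t q j ((β1.prod β2) m) := by
  by_cases hj : j = j₀
  · rw [hj, opsD_self]
    change (β1 (t' j₀ m), β2 (t' j₀ m)) = XD (t j₀) q (β1 m, β2 m)
    ext
    · simp only [XD_apply, hy.β1U]
    · simp only [XD_apply, hy.β2U]
      abel
  · rw [opsD_of_ne j₀ t q hj]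
    change (β1 (t' j m), β2 (t' j m)) = ((t j).prodMap (t j)) (β1 m, β2 m)
    ext
    · simp only [LinearMap.prodMap_apply, hy.β1_t j hj]
    · simp only [LinearMap.prodMap_apply, hy.β2_t j hj]

include hy in
theorem adjLin_intertwine (j : J) (p : H × H) :
    adjLin (t j₀) q (opsD j₀ t q j p) = opsN j₀ t q j (adjLin (t j₀) q p) := by
  by_cases hj : j = j₀
  · rw [hj, opsD_self, opsN_self]
    exact adjLin_XD _ _ p
  · rw [opsD_of_ne j₀ t q hj, opsN_of_ne j₀ t q hj]
    exact prodMap_comm_adjLin q (hy.comm j₀ j) p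

include hy in
theorem TT_intertwineN (j : J) (p : H × H) :
    ((t j₀).prodMap (t j₀)) (opsN j₀ t q j p) = opsN j₀ t q j (((t j₀).prodMap (t j₀)) p) := by
  by_cases hj : j = j₀
  · rw [hj, opsN_self]
    exact prodMap_XN _ _ p
  · rw [opsN_of_ne j₀ t q hj]
    exact LinearMap.congr_fun (prodMap_comm (hy.comm j₀ j)).eq p

include hy in
theorem TT_intertwineD (j : J) (p : H × H) :
    ((t j₀).prodMap (t j₀)) (opsD j₀ t q j p) = opsD j₀ t q j (((t j₀).prodMap (t j₀)) p) := by
  by_cases hj : j = j₀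
  · rw [hj, opsD_self]
    exact prodMap_XD _ _ p
  · rw [opsD_of_ne j₀ t q hj]
    exact LinearMap.congr_fun (prodMap_comm (hy.comm j₀ j)).eq p

/-- `ι (x, y) = α1 x + α2 y`, linear over the polynomial ring. -/
def iota : Nq hy →ₗ[MvPolynomial J R] Hq hy :=
  WithOps.map (α1.coprod α2) (coprod_intertwine hy)

/-- `ι† = (β1, β2)`, linear over the polynomial ring. -/
def iotaD : Hq hy →ₗ[MvPolynomial J R] Dq hy :=
  WithOps.map (β1.prod β2) (prod_intertwine hy)

/-- the adjugate, linear over the polynomial ring. -/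
def adjP : Dq hy →ₗ[MvPolynomial J R] Nq hy :=
  WithOps.map (adjLin (t j₀) q) (adjLin_intertwine hy)

/-- `τ × τ` on `N`, linear over the polynomial ring. -/
def TTN : Nq hy →ₗ[MvPolynomial J R] Nq hy :=
  WithOps.map ((t j₀).prodMap (t j₀)) (TT_intertwineN hy)

/-- `τ × τ` on `N†`, linear over the polynomial ring. -/
def TTD : Dq hy →ₗ[MvPolynomial J R] Dq hy :=
  WithOps.map ((t j₀).prodMap (t j₀)) (TT_intertwineD hy)

theorem eH_iota (n : Nq hy) : eH hy (iota hy n) = (α1.coprod α2) (eN hy n) := rfl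

theorem eD_iotaD (m : Hq hy) : eD hy (iotaD hy m) = (β1.prod β2) (eH hy m) := rfl

theorem eN_adjP (n : Dq hy) : eN hy (adjP hy n) = adjLin (t j₀) q (eD hy n) := rfl

theorem eN_TTN (n : Nq hy) : eN hy (TTN hy n) = ((t j₀).prodMap (t j₀)) (eN hy n) := rfl

theorem eD_TTD (n : Dq hy) : eD hy (TTD hy n) = ((t j₀).prodMap (t j₀)) (eD hy n) := rfl

theorem eN_X_smul (n : Nq hy) :
    eN hy ((MvPolynomial.X j₀ : MvPolynomial J R) • n) = XN (t j₀) q (eN hy n) := by
  rw [WithOps.X_smul, opsN_self]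

theorem eD_X_smul (n : Dq hy) :
    eD hy ((MvPolynomial.X j₀ : MvPolynomial J R) • n) = XD (t j₀) q (eD hy n) := by
  rw [WithOps.X_smul, opsD_self]

omit [DecidableEq J] in
theorem eH_X_smul (m : Hq hy) :
    eH hy ((MvPolynomial.X j₀ : MvPolynomial J R) • m) = t' j₀ (eH hy m) := by
  rw [WithOps.X_smul]

end Main

/-! #### the two elements and the theorem -/

section Final

/-- `s₁ = (q + 1)² X² - (X² + q)²`, `X = X j₀`. -/
def s1 (j₀ : J) (q : R) : MvPolynomial J R :=
  (MvPolynomial.C q + 1) ^ 2 * MvPolynomial.X j₀ ^ 2 - (MvPolynomial.X j₀ ^ 2 + MvPolynomial.C q) ^ 2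

/-- `s₂ = X² - 1`, `X = X j₀`. -/
def s2 (j₀ : J) : MvPolynomial J R := MvPolynomial.X j₀ ^ 2 - 1

omit [DecidableEq J] in
/-- the value of `s₁` at a system of eigenvalues : if `X j₀ ↦ a`, `q ↦ a b`, it is
`a² (1 - a²) (1 - b²)`; so `s₁, s₂ ∉ 𝔪` as soon as `a² ≠ 1`, `b² ≠ 1`, `a ≠ 0`. -/
theorem s1_eval_identity {k : Type*} [CommRing k] (a b : k) :
    (a * b + 1) ^ 2 * a ^ 2 - (a ^ 2 + a * b) ^ 2 = a ^ 2 * (1 - a ^ 2) * (1 - b ^ 2) := by
  ring

variable {j₀} {t : J → Module.End R H} {t' : J → Module.End R H'} {q : R}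
  {α1 α2 : H →ₗ[R] H'} {β1 β2 : H' →ₗ[R] H} (hy : Hyp j₀ t t' q α1 α2 β1 β2)

theorem CH_N (n : Nq hy) :
    ((MvPolynomial.X j₀ : MvPolynomial J R) ^ 2 + MvPolynomial.C q) • n
      = TTN hy ((MvPolynomial.X j₀ : MvPolynomial J R) • n) := by
  apply (eN hy).injective
  rw [add_smul, pow_two, mul_smul, map_add, eN_X_smul, eN_X_smul, WithOps.C_smul, map_smul,
    eN_TTN, eN_X_smul]
  exact XN_XN _ _ _

theorem CH_D (n : Dq hy) :
    ((MvPolynomial.X j₀ : MvPolynomial J R) ^ 2 + MvPolynomial.C q) • n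
      = TTD hy ((MvPolynomial.X j₀ : MvPolynomial J R) • n) := by
  apply (eD hy).injective
  rw [add_smul, pow_two, mul_smul, map_add, eD_X_smul, eD_X_smul, WithOps.C_smul, map_smul,
    eD_TTD, eD_X_smul]
  exact XD_XD _ _ _

omit [DecidableEq J] in
theorem C_add_one_sq (q : R) :
    ((MvPolynomial.C q + 1 : MvPolynomial J R)) ^ 2 = MvPolynomial.C ((q + 1) ^ 2) := by
  rw [map_pow, map_add, map_one]

theorem s1_smul_N (n : Nq hy) :
    s1 j₀ q • n = (q + 1) ^ 2 • ((MvPolynomial.X j₀ : MvPolynomial J R) ^ 2 • n)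
      - TTN hy (TTN hy ((MvPolynomial.X j₀ : MvPolynomial J R) ^ 2 • n)) := by
  set X : MvPolynomial J R := MvPolynomial.X j₀ with hX
  have h2 : ((X ^ 2 + MvPolynomial.C q) ^ 2) • n = TTN hy (TTN hy (X ^ 2 • n)) := by
    calc ((X ^ 2 + MvPolynomial.C q) ^ 2) • n
        = (X ^ 2 + MvPolynomial.C q) • ((X ^ 2 + MvPolynomial.C q) • n) := by
          rw [pow_two (X ^ 2 + MvPolynomial.C q), mul_smul]
      _ = (X ^ 2 + MvPolynomial.C q) • TTN hy (X • n) := by rw [CH_N hy n]
      _ = TTN hy ((X ^ 2 + MvPolynomial.C q) • (X • n)) := (map_smul _ _ _).symm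
      _ = TTN hy (X • ((X ^ 2 + MvPolynomial.C q) • n)) := by rw [smul_comm]
      _ = TTN hy (X • TTN hy (X • n)) := by rw [CH_N hy n]
      _ = TTN hy (TTN hy (X • (X • n))) := by rw [← map_smul]
      _ = TTN hy (TTN hy (X ^ 2 • n)) := by rw [pow_two, mul_smul]
  unfold s1
  rw [sub_smul, mul_smul, C_add_one_sq, WithOps.C_smul, h2]

theorem s1_smul_D (n : Dq hy) :
    s1 j₀ q • n = (q + 1) ^ 2 • ((MvPolynomial.X j₀ : MvPolynomial J R) ^ 2 • n)
      - TTD hy (TTD hy ((MvPolynomial.X j₀ : MvPolynomial J R) ^ 2 • n)) := by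
  set X : MvPolynomial J R := MvPolynomial.X j₀ with hX
  have h2 : ((X ^ 2 + MvPolynomial.C q) ^ 2) • n = TTD hy (TTD hy (X ^ 2 • n)) := by
    calc ((X ^ 2 + MvPolynomial.C q) ^ 2) • n
        = (X ^ 2 + MvPolynomial.C q) • ((X ^ 2 + MvPolynomial.C q) • n) := by
          rw [pow_two (X ^ 2 + MvPolynomial.C q), mul_smul]
      _ = (X ^ 2 + MvPolynomial.C q) • TTD hy (X • n) := by rw [CH_D hy n]
      _ = TTD hy ((X ^ 2 + MvPolynomial.C q) • (X • n)) := (map_smul _ _ _).symm
      _ = TTD hy (X • ((X ^ 2 + MvPolynomial.C q) • n)) := by rw [smul_comm]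
      _ = TTD hy (X • TTD hy (X • n)) := by rw [CH_D hy n]
      _ = TTD hy (TTD hy (X • (X • n))) := by rw [← map_smul]
      _ = TTD hy (TTD hy (X ^ 2 • n)) := by rw [pow_two, mul_smul]
  unfold s1
  rw [sub_smul, mul_smul, C_add_one_sq, WithOps.C_smul, h2]

/-- `adj ∘ ι† ∘ ι = (q + 1)² - τ²` on `N`. -/
theorem adjP_iotaD_iota (n : Nq hy) :
    adjP hy (iotaD hy (iota hy n)) = (q + 1) ^ 2 • n - TTN hy (TTN hy n) := by
  apply (eN hy).injective
  rw [eN_adjP, eD_iotaD, eH_iota, map_sub, map_smul, eN_TTN, eN_TTN]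
  set p := eN hy n with hp
  change adjLin (t j₀) q (β1 ((α1.coprod α2) p), β2 ((α1.coprod α2) p)) = _
  ext
  · simp only [LinearMap.coprod_apply, adjLin_apply, map_add, hy.β1α1, hy.β1α2, hy.β2α1, hy.β2α2,
      map_smul, Prod.fst_sub, Prod.smul_fst, LinearMap.prodMap_apply]
    module
  · simp only [LinearMap.coprod_apply, adjLin_apply, map_add, hy.β1α1, hy.β1α2, hy.β2α1, hy.β2α2,
      map_smul, Prod.snd_sub, Prod.smul_snd, LinearMap.prodMap_apply]
    module

/-- `ι† ∘ ι ∘ adj = (q + 1)² - τ²` on `N†`. -/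
theorem iotaD_iota_adjP (n : Dq hy) :
    iotaD hy (iota hy (adjP hy n)) = (q + 1) ^ 2 • n - TTD hy (TTD hy n) := by
  apply (eD hy).injective
  rw [eD_iotaD, eH_iota, eN_adjP, map_sub, map_smul, eD_TTD, eD_TTD]
  set p := eD hy n with hp
  change (β1 ((α1.coprod α2) (adjLin (t j₀) q p)), β2 ((α1.coprod α2) (adjLin (t j₀) q p))) = _
  ext
  · simp only [LinearMap.coprod_apply, adjLin_apply, map_add, map_sub, map_neg, hy.β1α1, hy.β1α2,
      map_smul, Prod.fst_sub, Prod.smul_fst, LinearMap.prodMap_apply]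
    module
  · simp only [LinearMap.coprod_apply, adjLin_apply, map_add, map_sub, map_neg,
      hy.β2α1, hy.β2α2, map_smul, Prod.snd_sub, Prod.smul_snd, LinearMap.prodMap_apply]
    module

/-- **D1** : the localisation of `ι` at a submonoid containing `s₁` and `s₂` is bijective (for
any localisations `φN`, `φH` of `Nq` and `Hq`). -/
theorem bijective_map_iota (S : Submonoid (MvPolynomial J R)) (hs1 : s1 j₀ q ∈ S)
    (hs2 : s2 (R := R) j₀ ∈ S)
    {NS HS : Type*} [AddCommGroup NS] [Module (MvPolynomial J R) NS] [AddCommGroup HS]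
    [Module (MvPolynomial J R) HS] (φN : Nq hy →ₗ[MvPolynomial J R] NS)
    (φH : Hq hy →ₗ[MvPolynomial J R] HS) [IsLocalizedModule S φN] [IsLocalizedModule S φH] :
    Function.Bijective (IsLocalizedModule.map S φN φH (iota hy)) := by
  set X : MvPolynomial J R := MvPolynomial.X j₀ with hX
  refine bijective_map_of_split S φN φH (iota hy) (iotaD hy) (X ^ 2 • adjP hy) (s1 j₀ q)
    (s2 j₀) ?_ ?_ ?_ hs1 hs2
  · intro n
    have e1 : X ^ 2 • TTN hy (TTN hy n) = TTN hy (TTN hy (X ^ 2 • n)) := by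
      rw [map_smul, map_smul]
    calc (X ^ 2 • adjP hy) (iotaD hy (iota hy n))
        = X ^ 2 • adjP hy (iotaD hy (iota hy n)) := LinearMap.smul_apply _ _ _
      _ = X ^ 2 • ((q + 1) ^ 2 • n - TTN hy (TTN hy n)) := by rw [adjP_iotaD_iota]
      _ = (q + 1) ^ 2 • (X ^ 2 • n) - TTN hy (TTN hy (X ^ 2 • n)) := by
          rw [smul_sub, smul_comm, e1]
      _ = s1 j₀ q • n := (s1_smul_N hy n).symm
  · intro m
    set n' := iotaD hy m with hn'
    have e1 : X ^ 2 • TTD hy (TTD hy n') = TTD hy (TTD hy (X ^ 2 • n')) := by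
      rw [map_smul, map_smul]
    calc iotaD hy (iota hy ((X ^ 2 • adjP hy) n'))
        = X ^ 2 • iotaD hy (iota hy (adjP hy n')) := by
          rw [LinearMap.smul_apply, map_smul, map_smul]
      _ = X ^ 2 • ((q + 1) ^ 2 • n' - TTD hy (TTD hy n')) := by rw [iotaD_iota_adjP]
      _ = (q + 1) ^ 2 • (X ^ 2 • n') - TTD hy (TTD hy (X ^ 2 • n')) := by
          rw [smul_sub, smul_comm, e1]
      _ = s1 j₀ q • n' := (s1_smul_D hy n').symm
  · intro m hm
    have hm' : (β1.prod β2) (eH hy m) = 0 := by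
      rw [← eD_iotaD, hm, map_zero]
    have h1 : β1 (eH hy m) = 0 := congrArg Prod.fst hm'
    have h2 : β2 (eH hy m) = 0 := congrArg Prod.snd hm'
    apply (eH hy).injective
    unfold s2
    rw [sub_smul, one_smul, pow_two, mul_smul, map_sub, eH_X_smul, eH_X_smul,
      hy.UU _ h1 h2, sub_self, map_zero]

end Final

end Concrete

end Fermat.Agent.S43.Hecke.Descent.Split
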