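/-
PROJECT R (S43, row 37), block L3 (Hecke modules, leader helper24), brick H8 = Taylor-Wiles
descent, part D3 step 2 (helper20): the maps of `Descent/Inst` (helper12) are linear over the
polynomial Hecke algebra away from `q`.

`R` a commutative ring, `A` an `R`-module, `q ∤ N` prime, `p : J → ℕ` a family of primes `≠ q`.
`P = MvPolynomial J R` acts on `Hom(Γ₀(M), A)` through `X j ↦ tau R A M (p j)` (`HP`, a `WithOps`
of `Hecke/PolyModule`; the family commutes by `Inst/CommHom.tauAll_comm`).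

* `tau_commute`, `Uq_tau` : ALL the `τ_r` commute at every level, in particular `U_q` with `τ_r`;
* `a1P a2P : HP N →ₗ[P] HP (N q)`, `b1P b2P` back, `UqP` on `HP (N q)`, `TqP` on `HP N`;
* the identities of `Descent/Inst` for them, elementwise, with scalars in `R`;
* **`hyp`** : the structure `Split.Hyp` of D1 (helper6) for `t j = τ_{p j}` at level `N`,
  `t' j = τ_{p j}` at level `N q`, `q = p j₀`.
-/
import Mathlib
import Fermat.Agent.S43.Hecke.Descent.Inst
import Fermat.Agent.S43.Hecke.Inst.CommHom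
import Fermat.Agent.S43.Hecke.PolyModule
import Fermat.Agent.S43.Hecke.Descent.Split

set_option autoImplicit false

open CongruenceSubgroup
open scoped MatrixGroups

noncomputable section

namespace Fermat.Agent.S43.Hecke.Descent.InstPoly

open Fermat.Agent.S30.Hecke.Gamma0Cosets Fermat.Agent.S30.Hecke.Parabolic
  Fermat.Agent.S43.Hecke.Descent.Inst Fermat.Agent.S43.Hecke.PolyModule
  Fermat.Agent.S43.Hecke.Inst.CommHom

variable (R : Type*) [CommRing R] (A : Type*) [AddCommGroup A] [Module R A]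

/-- **all the `τ_r` commute**, at every level. -/
theorem tau_commute (M : ℕ) {r s : ℕ} (hr : r.Prime) (hs : s.Prime) :
    Commute (tau R A M r hr) (tau R A M s hs) := by
  refine LinearMap.ext fun φ => ?_
  rw [Module.End.mul_apply, Module.End.mul_apply, tauAllLin_apply, tauAllLin_apply,
    tauAllLin_apply, tauAllLin_apply, tauAll_comm]

/-- **`U_q` commutes with every `τ_r`** at level `N q`. -/
theorem Uq_tau {N q : ℕ} (hq : q.Prime) {r : ℕ} (hr : r.Prime) :
    (Uq R A hq N) ∘ₗ (tau R A (N * q) r hr) = (tau R A (N * q) r hr) ∘ₗ (Uq R A hq N) := by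
  rw [Uq_eq_tau]
  exact (tau_commute R A (N * q) hq hr).eq

section Poly

variable {N q : ℕ} (hq : q.Prime) (hqN : ¬ q ∣ N)
  {J : Type*} (p : J → ℕ) (hp : ∀ j, (p j).Prime) (hpq : ∀ j, p j ≠ q)

/-- the operators `τ_{p j}` at level `M`. -/
def opsAt (M : ℕ) : J → Module.End R (Additive (Gamma0 M) →+ A) := fun j => tau R A M (p j) (hp j)

theorem opsAt_comm (M : ℕ) (i j : J) : Commute (opsAt R A p hp M i) (opsAt R A p hp M j) :=
  tau_commute R A M (hp i) (hp j)

/-- `Hom(Γ₀(M), A)` as a module over the polynomial Hecke algebra `MvPolynomial J R`. -/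
abbrev HP (M : ℕ) : Type _ := WithOps (opsAt R A p hp M) (opsAt_comm R A p hp M)

include hpq in
/-- `α₁`, linear over the Hecke algebra away from `q`. -/
def a1P : HP R A p hp N →ₗ[MvPolynomial J R] HP R A p hp (N * q) :=
  WithOps.map (a1 R A N q) (fun j x => LinearMap.congr_fun (a1_tau R A hq (hp j) (hpq j)) x)

/-- `α₂`. -/
def a2P : HP R A p hp N →ₗ[MvPolynomial J R] HP R A p hp (N * q) :=
  WithOps.map (a2 R A hq hqN)
    (fun j x => LinearMap.congr_fun (a2_tau R A hq hqN (hp j) (hpq j)) x)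

/-- `β₁`. -/
def b1P : HP R A p hp (N * q) →ₗ[MvPolynomial J R] HP R A p hp N :=
  WithOps.map (b1 R A hq hqN)
    (fun j x => LinearMap.congr_fun (b1_tau R A hq hqN (hp j) (hpq j)) x)

/-- `β₂`. -/
def b2P : HP R A p hp (N * q) →ₗ[MvPolynomial J R] HP R A p hp N :=
  WithOps.map (b2 R A hq hqN)
    (fun j x => LinearMap.congr_fun (b2_tau R A hq hqN (hp j) (hpq j)) x)

/-- `U_q`. -/
def UqP : HP R A p hp (N * q) →ₗ[MvPolynomial J R] HP R A p hp (N * q) :=
  WithOps.map (Uq R A hq N) (fun j x => LinearMap.congr_fun (Uq_tau R A hq (hp j)) x)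

/-- `T_q` at level `N`. -/
def TqP : HP R A p hp N →ₗ[MvPolynomial J R] HP R A p hp N :=
  WithOps.map (Tq R A hq hqN)
    (fun j x => LinearMap.congr_fun (Tq_tau R A hq hqN (hp j) (hpq j)) x)

/-! ### the identities, over the polynomial Hecke algebra -/

theorem b1P_a1P (x : HP R A p hp N) :
    b1P R A hq hqN p hp hpq (a1P R A hq p hp hpq x) = ((q : R) + 1) • x :=
  LinearMap.congr_fun (b1_a1 R A hq hqN) x

theorem b2P_a2P (x : HP R A p hp N) :
    b2P R A hq hqN p hp hpq (a2P R A hq hqN p hp hpq x) = ((q : R) + 1) • x :=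
  LinearMap.congr_fun (b2_a2 R A hq hqN) x

theorem b1P_a2P (x : HP R A p hp N) :
    b1P R A hq hqN p hp hpq (a2P R A hq hqN p hp hpq x) = TqP R A hq hqN p hp hpq x :=
  LinearMap.congr_fun (b1_a2 R A hq hqN) x

theorem b2P_a1P (x : HP R A p hp N) :
    b2P R A hq hqN p hp hpq (a1P R A hq p hp hpq x) = TqP R A hq hqN p hp hpq x :=
  LinearMap.congr_fun (b2_a1 R A hq hqN) x

/-- **`U α₁ = α₁ T_q - α₂`** -/
theorem UqP_a1P (x : HP R A p hp N) :
    UqP R A hq p hp (a1P R A hq p hp hpq x) =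
      a1P R A hq p hp hpq (TqP R A hq hqN p hp hpq x) - a2P R A hq hqN p hp hpq x :=
  LinearMap.congr_fun (Uq_a1 R A hq hqN) x

/-- **`U α₂ = q α₁`** -/
theorem UqP_a2P (x : HP R A p hp N) :
    UqP R A hq p hp (a2P R A hq hqN p hp hpq x) = (q : R) • a1P R A hq p hp hpq x :=
  LinearMap.congr_fun (Uq_a2 R A hq hqN) x

/-- **`β₁ U = q β₂`** -/
theorem b1P_UqP (y : HP R A p hp (N * q)) :
    b1P R A hq hqN p hp hpq (UqP R A hq p hp y) = (q : R) • b2P R A hq hqN p hp hpq y :=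
  LinearMap.congr_fun (b1_Uq R A hq hqN) y

/-- **`β₂ U = T_q β₂ - β₁`** -/
theorem b2P_UqP (y : HP R A p hp (N * q)) :
    b2P R A hq hqN p hp hpq (UqP R A hq p hp y) =
      TqP R A hq hqN p hp hpq (b2P R A hq hqN p hp hpq y) - b1P R A hq hqN p hp hpq y :=
  LinearMap.congr_fun (b2_Uq R A hq hqN) y

/-- **`U U = 1` on `ker β₁ ∩ ker β₂`** -/
theorem UqP_UqP_of_ker (y : HP R A p hp (N * q)) (h1 : b1P R A hq hqN p hp hpq y = 0)
    (h2 : b2P R A hq hqN p hp hpq y = 0) : UqP R A hq p hp (UqP R A hq p hp y) = y :=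
  Uq_Uq_of_ker R A hq hqN y h1 h2

end Poly

/-! ### the hypotheses of the splitting lemma D1 -/

section Hyp

open Fermat.Agent.S43.Hecke.Descent.Split

variable {N : ℕ} {J : Type*} (p : J → ℕ) (hp : ∀ j, (p j).Prime) (j₀ : J)
  (hqN : ¬ p j₀ ∣ N) (hne : ∀ j, j ≠ j₀ → p j ≠ p j₀)

include hne in
/-- **the structure `Hyp` of `Descent/Split`** for the family `τ_{p j}`, `q = p j₀ ∤ N`: `t j₀` is
`T_q` at level `N`, `t' j₀` is `U_q` at level `N q`. -/
theorem hyp :
    Hyp j₀ (fun j => tau R A N (p j) (hp j)) (fun j => tau R A (N * p j₀) (p j) (hp j))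
      ((p j₀ : ℕ) : R) (a1 R A N (p j₀)) (a2 R A (hp j₀) hqN) (b1 R A (hp j₀) hqN)
      (b2 R A (hp j₀) hqN) where
  comm i j := tau_commute R A N (hp i) (hp j)
  comm' i j := tau_commute R A (N * p j₀) (hp i) (hp j)
  α1_t j hj x := LinearMap.congr_fun (a1_tau R A (hp j₀) (hp j) (hne j hj)) x
  α2_t j hj x := LinearMap.congr_fun (a2_tau R A (hp j₀) hqN (hp j) (hne j hj)) x
  β1_t j hj m := LinearMap.congr_fun (b1_tau R A (hp j₀) hqN (hp j) (hne j hj)) m
  β2_t j hj m := LinearMap.congr_fun (b2_tau R A (hp j₀) hqN (hp j) (hne j hj)) m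
  β1α1 x := LinearMap.congr_fun (b1_a1 R A (hp j₀) hqN) x
  β2α2 x := LinearMap.congr_fun (b2_a2 R A (hp j₀) hqN) x
  β1α2 x := by
    rw [← Tq_eq_tau R A (hp j₀) hqN]
    exact LinearMap.congr_fun (b1_a2 R A (hp j₀) hqN) x
  β2α1 x := by
    rw [← Tq_eq_tau R A (hp j₀) hqN]
    exact LinearMap.congr_fun (b2_a1 R A (hp j₀) hqN) x
  Uα1 x := by
    rw [← Tq_eq_tau R A (hp j₀) hqN, ← Uq_eq_tau R A (hp j₀)]
    exact LinearMap.congr_fun (Uq_a1 R A (hp j₀) hqN) x
  Uα2 x := by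
    rw [← Uq_eq_tau R A (hp j₀)]
    exact LinearMap.congr_fun (Uq_a2 R A (hp j₀) hqN) x
  β1U m := by
    rw [← Uq_eq_tau R A (hp j₀)]
    exact LinearMap.congr_fun (b1_Uq R A (hp j₀) hqN) m
  β2U m := by
    rw [← Tq_eq_tau R A (hp j₀) hqN, ← Uq_eq_tau R A (hp j₀)]
    exact LinearMap.congr_fun (b2_Uq R A (hp j₀) hqN) m
  UU m h1 h2 := by
    rw [← Uq_eq_tau R A (hp j₀)]
    exact Uq_Uq_of_ker R A (hp j₀) hqN m h1 h2

end Hyp

end Fermat.Agent.S43.Hecke.Descent.InstPoly
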