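/-
PROJECT R (S43, row 37), block L3 (Hecke side), brick H8/D2a (helper6): HENSEL IN A LOCAL HECKE
ALGEBRA, STATED WITHOUT THE ALGEBRA.

`R` a complete noetherian local ring, `P` a commutative `R`-algebra (a polynomial Hecke algebra),
`K` a `P`-module which is finite over `R`, `ev : P →+* k` a character to a field such that every
`u` with `ev u ≠ 0` acts bijectively on `K` (`K` is a localisation at `ker ev`).

* `exists_inv_smul`   : the inverse of such a `u` on `K` is given by an element of `P`;
* `exists_hensel_root` : a simple root `a` of `Y² - (ev τ) Y + ev q` lifts to `A : P` with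
  `ev A = a` and `(A² - τ A + q) • z = 0` for all `z : K`.
-/
import Mathlib
import Fermat.Prelude.Thm_IsLocalRing_isAdicComplete_of_module_finite

set_option autoImplicit false

noncomputable section

namespace Fermat.Agent.S43.Hecke.Descent.LocalAlg

open IsLocalRing Polynomial

section Inverse

/-- an element of `P` acting bijectively on a finite `R`-module has its inverse in `P`. -/
theorem exists_inv_smul_of_bijective (R : Type*) [CommRing R] {P : Type*} [CommRing P]
    [Algebra R P] {K : Type*} [AddCommGroup K] [Module R K] [Module P K] [IsScalarTower R P K]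
    [Module.Finite R K] (u : P) (hu : Function.Bijective fun z : K => u • z) :
    ∃ v : P, ∀ z : K, v • u • z = z := by
  classical
  set L : P →ₐ[R] Module.End R K := Algebra.lsmul R R K with hL
  have hLapp : ∀ (w : P) (z : K), L w z = w • z := fun w z => rfl
  set f : Module.End R K := L u with hf
  -- the inverse as a linear map
  let e : K ≃ₗ[R] K := LinearEquiv.ofBijective f hu
  set g : Module.End R K := e.symm.toLinearMap with hg
  have hfg : f * g = 1 := by
    refine LinearMap.ext fun z => ?_
    rw [Module.End.mul_apply, Module.End.one_apply]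
    exact e.apply_symm_apply z
  have hgf : g * f = 1 := by
    refine LinearMap.ext fun z => ?_
    rw [Module.End.mul_apply, Module.End.one_apply]
    exact e.symm_apply_apply z
  have hcomm : Commute f g := by rw [Commute, SemiconjBy, hfg, hgf]
  -- `g` is integral over `R`
  obtain ⟨p, hpm, hp⟩ := LinearMap.exists_monic_and_aeval_eq_zero R g
  set n := p.natDegree with hn
  have hfgpow : ∀ i, i ≤ n → f ^ n * g ^ i = f ^ (n - i) := by
    intro i hi
    have h1 : f ^ n = f ^ (n - i) * f ^ i := by rw [← pow_add, Nat.sub_add_cancel hi]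
    rw [h1, mul_assoc, ← hcomm.mul_pow, hfg, one_pow, mul_one]
  have hsum : ∑ i ∈ Finset.range (n + 1), p.coeff i • f ^ (n - i) = 0 := by
    have h0 : f ^ n * (Polynomial.aeval g p) = 0 := by rw [hp, mul_zero]
    rw [Polynomial.aeval_eq_sum_range, Finset.mul_sum] at h0
    rw [← h0]
    refine Finset.sum_congr rfl fun i hi => ?_
    rw [mul_smul_comm, hfgpow i (Nat.lt_succ_iff.mp (Finset.mem_range.mp hi))]
  rw [Finset.sum_range_succ, Nat.sub_self, pow_zero, hn, hpm.coeff_natDegree, one_smul] at hsum
  -- the candidate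
  set v : P := -∑ i ∈ Finset.range n, algebraMap R P (p.coeff i) * u ^ (n - 1 - i) with hv
  have hLv : L v = -∑ i ∈ Finset.range n, p.coeff i • f ^ (n - 1 - i) := by
    rw [hv, map_neg, map_sum]
    congr 1
    refine Finset.sum_congr rfl fun i _ => ?_
    rw [map_mul, AlgHom.commutes, map_pow, Algebra.algebraMap_eq_smul_one, smul_mul_assoc, one_mul]
  have hfv : f * L v = 1 := by
    rw [hLv, mul_neg, Finset.mul_sum]
    have h2 : ∑ i ∈ Finset.range n, f * p.coeff i • f ^ (n - 1 - i)
        = ∑ i ∈ Finset.range n, p.coeff i • f ^ (p.natDegree - i) := by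
      refine Finset.sum_congr rfl fun i hi => ?_
      have hi' : i < n := Finset.mem_range.mp hi
      rw [mul_smul_comm, ← pow_succ', ← hn]
      congr 2
      omega
    rw [h2]
    exact neg_eq_of_add_eq_zero_right hsum
  refine ⟨v, fun z => ?_⟩
  have h3 : L v (f z) = z := by
    have h4 : L v * f = 1 := by
      have hc : Commute f (L v) := by
        rw [hf, Commute, SemiconjBy, ← map_mul, ← map_mul, mul_comm]
      rw [← hc.eq, hfv]
    rw [← Module.End.mul_apply, h4, Module.End.one_apply]
  exact h3

end Inverse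

section Hensel

variable {R : Type*} [CommRing R] [IsNoetherianRing R] [IsLocalRing R]
  [IsAdicComplete (maximalIdeal R) R]
  {P : Type*} [CommRing P] [Algebra R P]
  {K : Type*} [AddCommGroup K] [Module R K] [Module P K] [IsScalarTower R P K]
  [Module.Finite R K]
  {k : Type*} [Field k] (ev : P →+* k)

include R in
/-- **Hensel's lemma in the Hecke algebra of a localisation**, stated on elements of `P`. -/
theorem exists_hensel_root (hsurj : Function.Surjective ev)
    (hev : ∀ r ∈ maximalIdeal R, ev (algebraMap R P r) = 0)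
    (hunit : ∀ u : P, ev u ≠ 0 → Function.Bijective fun z : K => u • z)
    (τ q : P) (a : k) (ha : a ^ 2 - ev τ * a + ev q = 0) (hsimple : 2 * a - ev τ ≠ 0) :
    ∃ A : P, ev A = a ∧ ∀ z : K, (A * A - τ * A + q) • z = 0 := by
  classical
  by_cases hK : Subsingleton K
  · obtain ⟨A, hA⟩ := hsurj a
    exact ⟨A, hA, fun z => Subsingleton.elim _ _⟩
  rw [not_subsingleton_iff_nontrivial] at hK
  set I : Ideal P := Module.annihilator P K with hI
  have hIker : I ≤ RingHom.ker ev := by
    intro u hu
    rw [RingHom.mem_ker]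
    by_contra hne
    obtain ⟨x, y, hxy⟩ := hK
    apply hxy
    apply (hunit u hne).injective
    simp only
    rw [Module.mem_annihilator.mp hu x, Module.mem_annihilator.mp hu y]
  -- the Hecke algebra
  let evT : P ⧸ I →+* k := Ideal.Quotient.lift I ev (fun u hu => hIker hu)
  have hevT : ∀ u : P, evT (Ideal.Quotient.mk I u) = ev u := fun u => rfl
  have hunitT : ∀ x : P ⧸ I, evT x ≠ 0 → IsUnit x := by
    intro x hx
    obtain ⟨u, rfl⟩ := Ideal.Quotient.mk_surjective x
    rw [hevT] at hx
    obtain ⟨v, hv⟩ := exists_inv_smul_of_bijective R u (hunit u hx)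
    refine IsUnit.of_mul_eq_one_right (Ideal.Quotient.mk I v) ?_
    rw [← map_mul, ← map_one (Ideal.Quotient.mk I), Ideal.Quotient.eq, Module.mem_annihilator]
    intro z
    rw [sub_smul, mul_smul, hv, one_smul, sub_self]
  have hunitT' : ∀ x : P ⧸ I, IsUnit x → evT x ≠ 0 := fun x hx => (hx.map evT).ne_zero
  have : Nontrivial (P ⧸ I) := by
    rw [Ideal.Quotient.nontrivial_iff]
    intro htop
    have : (1 : P) ∈ RingHom.ker ev := hIker (htop ▸ Submodule.mem_top)
    rw [RingHom.mem_ker, map_one] at this
    exact one_ne_zero this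
  have : IsLocalRing (P ⧸ I) := by
    refine IsLocalRing.of_nonunits_add fun x y hx hy => ?_
    rw [mem_nonunits_iff] at hx hy ⊢
    have hx0 : evT x = 0 := by
      by_contra h
      exact hx (hunitT x h)
    have hy0 : evT y = 0 := by
      by_contra h
      exact hy (hunitT y h)
    intro hxy
    exact hunitT' _ hxy (by rw [map_add, hx0, hy0, add_zero])
  have hmax : ∀ x : P ⧸ I, x ∈ maximalIdeal (P ⧸ I) ↔ evT x = 0 := by
    intro x
    rw [mem_maximalIdeal, mem_nonunits_iff]
    constructor
    · intro hx
      by_contra h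
      exact hx (hunitT x h)
    · intro hx hu
      exact hunitT' x hu hx
  have : IsLocalHom (algebraMap R (P ⧸ I)) := by
    refine ⟨fun r hr => ?_⟩
    have h1 : evT (algebraMap R (P ⧸ I) r) ≠ 0 := hunitT' _ hr
    have h2 : algebraMap R (P ⧸ I) r = Ideal.Quotient.mk I (algebraMap R P r) := rfl
    rw [h2, hevT] at h1
    by_contra hr'
    exact h1 (hev r ((mem_maximalIdeal r).mpr hr'))
  have : Module.Finite R (P ⧸ I) := by
    let L : P →ₐ[R] Module.End R K := Algebra.lsmul R R K
    have hL : ∀ a ∈ I, L a = 0 := fun a ha => by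
      ext z
      exact Module.mem_annihilator.mp ha z
    let Lq : (P ⧸ I) →ₐ[R] Module.End R K := Ideal.Quotient.liftₐ I L hL
    have hinj : Function.Injective Lq := by
      rw [injective_iff_map_eq_zero]
      intro x hx
      obtain ⟨u, rfl⟩ := Ideal.Quotient.mk_surjective x
      rw [Ideal.Quotient.eq_zero_iff_mem, Module.mem_annihilator]
      intro z
      exact LinearMap.congr_fun hx z
    exact Module.Finite.of_injective Lq.toLinearMap hinj
  have : IsAdicComplete (maximalIdeal (P ⧸ I)) (P ⧸ I) :=
    IsLocalRing.isAdicComplete_of_module_finite (𝒪 := R)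
  -- Hensel
  obtain ⟨A₀, hA₀⟩ := hsurj a
  set f : (P ⧸ I)[X] :=
    X ^ 2 - C (Ideal.Quotient.mk I τ) * X + C (Ideal.Quotient.mk I q) with hf
  have hfmonic : f.Monic := by
    have h1 : f = X ^ 2 + (-(C (Ideal.Quotient.mk I τ) * X) + C (Ideal.Quotient.mk I q)) := by
      rw [hf]; ring
    rw [h1]
    refine Polynomial.monic_X_pow_add ?_
    refine lt_of_le_of_lt (Polynomial.degree_add_le _ _) ?_
    rw [max_lt_iff]
    constructor
    · rw [Polynomial.degree_neg]
      refine lt_of_le_of_lt (Polynomial.degree_C_mul_X_le _) ?_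
      norm_num
    · exact lt_of_le_of_lt Polynomial.degree_C_le (by norm_num)
  have hfeval : ∀ x : P ⧸ I, f.eval x = x ^ 2 - Ideal.Quotient.mk I τ * x + Ideal.Quotient.mk I q := by
    intro x
    simp [hf]
  have hfder : ∀ x : P ⧸ I, f.derivative.eval x = 2 * x - Ideal.Quotient.mk I τ := by
    intro x
    simp [hf]
    ring
  have h1 : f.eval (Ideal.Quotient.mk I A₀) ∈ maximalIdeal (P ⧸ I) := by
    rw [hmax, hfeval, map_add, map_sub, map_pow, map_mul, hevT, hevT, hevT, hA₀]
    exact ha
  have h2 : IsUnit (Ideal.Quotient.mk (maximalIdeal (P ⧸ I))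
      (f.derivative.eval (Ideal.Quotient.mk I A₀))) := by
    refine IsUnit.map _ (hunitT _ ?_)
    rw [hfder, map_sub, map_mul, map_ofNat, hevT, hevT, hA₀]
    exact hsimple
  obtain ⟨x, hxroot, hxa⟩ := HenselianRing.is_henselian (R := P ⧸ I)
    (I := maximalIdeal (P ⧸ I)) f hfmonic (Ideal.Quotient.mk I A₀) h1 h2
  obtain ⟨A, rfl⟩ := Ideal.Quotient.mk_surjective x
  refine ⟨A, ?_, ?_⟩
  · rw [hmax, map_sub, hevT, hevT, hA₀, sub_eq_zero] at hxa
    exact hxa
  · have h3 : f.eval (Ideal.Quotient.mk I A) = 0 := hxroot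
    rw [hfeval, ← map_pow, ← map_mul, ← map_sub, ← map_add, Ideal.Quotient.eq_zero_iff_mem,
      Module.mem_annihilator] at h3
    intro z
    rw [← h3 z, pow_two]

end Hensel

end Fermat.Agent.S43.Hecke.Descent.LocalAlg
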