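/-
PROJECT R (S43, row 37), block L3 (Hecke side), brick H8/D2 (helper6; helper24's cut):
THE TAYLOR-WILES DESCENT, SECOND HALF.

`N = H × H` with `X j₀` acting as `(x, y) ↦ (τ x + q y, - x)` (`Split.opsN`), localised at the
character `ev'` (`X j₀ ↦ a`, a simple root of `Y² - (ev τ) Y + ev q`), is isomorphic to `H` localised
at `ev` (`X j₀ ↦ ev τ`), compatibly with the operators `X j`, `j ≠ j₀` (`exists_equiv`).

* `exists_tilde` : for every `u` there are `d` and `ũ` with `ũ = X^d u(T)` on `N`, where `T` acts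
  diagonally (`T X = X² + q` on `N`), and `ev' ũ = a^d ev u`;
* the Hensel root `A` of `LocalAlg.exists_hensel_root` turns `K = H_ev` into a module `K'` over the
  polynomial ring with `X j₀` acting as `A`; `Ψ (x, y) = x + B y` (`B = τ - A`) is a localisation
  of `N` at `ev'`.
-/
import Mathlib
import Fermat.Agent.S43.Hecke.PolyModule
import Fermat.Agent.S43.Hecke.Descent.Split
import Fermat.Agent.S43.Hecke.Descent.LocalAlg

set_option autoImplicit false

noncomputable section

namespace Fermat.Agent.S43.Hecke.Descent.Hensel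

open Fermat.Agent.S43.Hecke.PolyModule
open Fermat.Agent.S43.Hecke.Descent.Split

variable {R : Type*} [CommRing R] {J : Type*} [DecidableEq J] (j₀ : J)
  {H : Type*} [AddCommGroup H] [Module R H]
  (t : J → Module.End R H) (q : R) (hcomm : ∀ i j, Commute (t i) (t j))

/-! ### the diagonal action and `exists_tilde` -/

/-- the diagonal operators on `H × H`. -/
def diagOps (j : J) : Module.End R (H × H) := (t j).prodMap (t j)

omit [DecidableEq J] in
include hcomm in
theorem diagOps_comm (i j : J) : Commute (diagOps t i) (diagOps t j) :=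
  prodMap_comm (hcomm i j)

theorem opsN_eq_diagOps {j : J} (h : j ≠ j₀) : opsN j₀ t q j = diagOps t j :=
  opsN_of_ne j₀ t q h

omit [DecidableEq J] in
theorem XN_polyAct_diag (u : MvPolynomial J R) (p : H × H) :
    XN (t j₀) q (polyAct (diagOps t) (diagOps_comm t hcomm) u p)
      = polyAct (diagOps t) (diagOps_comm t hcomm) u (XN (t j₀) q p) :=
  map_polyAct (XN (t j₀) q) (fun j x => (prodMap_comm_XN q (hcomm j₀ j) x).symm) u p

omit [DecidableEq J] in
theorem commute_XN_polyAct_diag (u : MvPolynomial J R) :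
    Commute (XN (t j₀) q) (polyAct (diagOps t) (diagOps_comm t hcomm) u) := by
  refine LinearMap.ext fun p => ?_
  rw [Module.End.mul_apply, Module.End.mul_apply]
  exact XN_polyAct_diag j₀ t q hcomm u p

/-- **`ũ = X^d u(T)` on `N`.** -/
theorem exists_tilde {k : Type*} [Field k] (ev ev' : MvPolynomial J R →+* k)
    (hC : ∀ r, ev' (MvPolynomial.C r) = ev (MvPolynomial.C r))
    (hX : ∀ j, j ≠ j₀ → ev' (MvPolynomial.X j) = ev (MvPolynomial.X j))
    (ha : ev' (MvPolynomial.X j₀) ^ 2 - ev (MvPolynomial.X j₀) * ev' (MvPolynomial.X j₀)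
      + ev (MvPolynomial.C q) = 0) (u : MvPolynomial J R) :
    ∃ (d : ℕ) (v : MvPolynomial J R),
      (∀ p : H × H, polyAct (opsN j₀ t q) (opsN_comm j₀ t q hcomm) v p
          = ((XN (t j₀) q) ^ d) (polyAct (diagOps t) (diagOps_comm t hcomm) u p)) ∧
        ev' v = ev' (MvPolynomial.X j₀) ^ d * ev u := by
  classical
  set aN := polyAct (opsN j₀ t q) (opsN_comm j₀ t q hcomm) with haN
  set aD := polyAct (diagOps t) (diagOps_comm t hcomm) with haD
  set Xop : Module.End R (H × H) := XN (t j₀) q with hXop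
  have haNX : aN (MvPolynomial.X j₀) = Xop := by
    rw [haN, polyAct_X, opsN_self]
  have hpow : ∀ (a b : ℕ) (z : H × H), (Xop ^ a) ((Xop ^ b) z) = (Xop ^ (a + b)) z :=
    fun a b z => by rw [pow_add, Module.End.mul_apply]
  induction u using MvPolynomial.induction_on with
  | C r =>
    refine ⟨0, MvPolynomial.C r, fun p => ?_, ?_⟩
    · rw [pow_zero, Module.End.one_apply, haN, haD, polyAct_C, polyAct_C]
    · rw [pow_zero, one_mul, hC]
  | add u₁ u₂ h₁ h₂ =>
    obtain ⟨d₁, v₁, hv₁, he₁⟩ := h₁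
    obtain ⟨d₂, v₂, hv₂, he₂⟩ := h₂
    refine ⟨d₁ + d₂, MvPolynomial.X j₀ ^ d₂ * v₁ + MvPolynomial.X j₀ ^ d₁ * v₂, fun p => ?_, ?_⟩
    · have e1 : aN (MvPolynomial.X j₀ ^ d₂ * v₁ + MvPolynomial.X j₀ ^ d₁ * v₂) p
          = (Xop ^ d₂) (aN v₁ p) + (Xop ^ d₁) (aN v₂ p) := by
        rw [map_add, map_mul, map_mul, map_pow, map_pow, haNX]
        rfl
      rw [e1, hv₁, hv₂, hpow, hpow, add_comm d₂ d₁, map_add, LinearMap.add_apply, map_add]
    · rw [map_add, map_mul, map_mul, map_pow, map_pow, he₁, he₂, map_add]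
      ring
  | mul_X u j h =>
    obtain ⟨d, v, hv, he⟩ := h
    by_cases hj : j = j₀
    · subst hj
      refine ⟨d + 1, v * (MvPolynomial.X j ^ 2 + MvPolynomial.C q), fun p => ?_, ?_⟩
      · have hcX : Commute Xop (aD u) := commute_XN_polyAct_diag j t q hcomm u
        have h1 : aN (MvPolynomial.X j ^ 2 + MvPolynomial.C q) p
            = diagOps t j (Xop p) := by
          rw [map_add, map_pow, haNX, haN, polyAct_C, LinearMap.add_apply, pow_two,
            Module.End.mul_apply, Module.algebraMap_end_apply]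
          exact XN_XN (t j) q p
        have h2 : diagOps t j (Xop p) = Xop (diagOps t j p) := prodMap_XN (t j) q p
        have e1 : aN (v * (MvPolynomial.X j ^ 2 + MvPolynomial.C q)) p
            = aN v (aN (MvPolynomial.X j ^ 2 + MvPolynomial.C q) p) := by
          rw [map_mul]
          rfl
        have e2 : aD (u * MvPolynomial.X j) p = aD u (diagOps t j p) := by
          rw [map_mul, haD, polyAct_X]
          rfl
        have e3 : aD u (Xop (diagOps t j p)) = Xop (aD u (diagOps t j p)) := by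
          have := LinearMap.congr_fun hcX.eq (diagOps t j p)
          rw [Module.End.mul_apply, Module.End.mul_apply] at this
          exact this.symm
        rw [e1, h1, h2, hv, e2, e3, pow_succ, Module.End.mul_apply]
      · have h3 : ev' (MvPolynomial.X j) ^ 2 + ev (MvPolynomial.C q)
            = ev (MvPolynomial.X j) * ev' (MvPolynomial.X j) := by
          linear_combination ha
        rw [map_mul, map_add, map_pow, hC, he, map_mul, h3]
        ring
    · refine ⟨d, v * MvPolynomial.X j, fun p => ?_, ?_⟩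
      · have e1 : aN (v * MvPolynomial.X j) p = aN v (diagOps t j p) := by
          rw [map_mul, haN, polyAct_X, opsN_eq_diagOps j₀ t q hj]
          rfl
        have e2 : aD (u * MvPolynomial.X j) p = aD u (diagOps t j p) := by
          rw [map_mul, haD, polyAct_X]
          rfl
        rw [e1, hv, e2]
      · rw [map_mul, map_mul, he, hX j hj]
        ring

/-! ### the diagonal action, componentwise -/

omit [DecidableEq J] in
theorem polyAct_diag_fst (w : MvPolynomial J R) (p : H × H) :
    (polyAct (diagOps t) (diagOps_comm t hcomm) w p).1 = polyAct t hcomm w p.1 :=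
  map_polyAct (LinearMap.fst R H H) (fun _ _ => rfl) w p

omit [DecidableEq J] in
theorem polyAct_diag_snd (w : MvPolynomial J R) (p : H × H) :
    (polyAct (diagOps t) (diagOps_comm t hcomm) w p).2 = polyAct t hcomm w p.2 :=
  map_polyAct (LinearMap.snd R H H) (fun _ _ => rfl) w p

omit [DecidableEq J] in
theorem polyAct_diag_apply (w : MvPolynomial J R) (p : H × H) :
    polyAct (diagOps t) (diagOps_comm t hcomm) w p
      = (polyAct t hcomm w p.1, polyAct t hcomm w p.2) :=
  Prod.ext (polyAct_diag_fst t hcomm w p) (polyAct_diag_snd t hcomm w p)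

omit [DecidableEq J] in
theorem commute_polyAct_diag (w w' : MvPolynomial J R) :
    Commute (polyAct (diagOps t) (diagOps_comm t hcomm) w)
      (polyAct (diagOps t) (diagOps_comm t hcomm) w') := by
  rw [Commute, SemiconjBy, ← map_mul, ← map_mul, mul_comm]

omit [DecidableEq J] in
/-- **the kernel computation on `H × H`** : if `u ⋆ (x + B ⋆ y) = 0` and `u' ⋆ f_B ⋆ y = 0`
(`f_B = B² - X j₀ B + q`), then `u u' ⋆ (X - B ⋆) (x, y) = 0`. -/
theorem kernel_pointwise (B u u' : MvPolynomial J R) (p : H × H)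
    (h1 : polyAct t hcomm u (p.1 + polyAct t hcomm B p.2) = 0)
    (h2 : polyAct t hcomm u'
      (polyAct t hcomm (B * B - MvPolynomial.X j₀ * B + MvPolynomial.C q) p.2) = 0) :
    polyAct (diagOps t) (diagOps_comm t hcomm) (u * u')
      (XN (t j₀) q p - polyAct (diagOps t) (diagOps_comm t hcomm) B p) = 0 := by
  set aD := polyAct (diagOps t) (diagOps_comm t hcomm) with haD
  set a := polyAct t hcomm with ha
  set Xop : Module.End R (H × H) := XN (t j₀) q with hXop
  have hXB : ∀ z : H × H, Xop (aD B z) = aD B (Xop z) := XN_polyAct_diag j₀ t q hcomm B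
  have hXu : ∀ z : H × H, Xop (aD u z) = aD u (Xop z) := XN_polyAct_diag j₀ t q hcomm u
  have hBu : ∀ z : H × H, aD B (aD u z) = aD u (aD B z) := fun z => by
    have := LinearMap.congr_fun (commute_polyAct_diag t hcomm B u).eq z
    rwa [Module.End.mul_apply, Module.End.mul_apply] at this
  -- the two pieces
  set p₁ : H × H := (p.1 + a B p.2, 0) with hp₁
  set p₂ : H × H := (a B p.2, -p.2) with hp₂
  have hp : p = p₁ - p₂ := by
    ext
    · simp [hp₁, hp₂]
    · simp [hp₁, hp₂]
  have e1 : aD u p₁ = 0 := by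
    rw [haD, polyAct_diag_apply t hcomm, hp₁, ← ha]
    ext
    · exact h1
    · simp
  have e2 : aD u' (Xop p₂ - aD B p₂) = 0 := by
    have h3 : Xop p₂ - aD B p₂
        = (-(a (B * B - MvPolynomial.X j₀ * B + MvPolynomial.C q) p.2), 0) := by
      rw [haD, polyAct_diag_apply t hcomm, hXop, hp₂, ← ha]
      ext
      · simp only [XN_apply, Prod.fst_sub, map_neg, smul_neg]
        rw [map_add, map_sub, map_mul, map_mul, ha, polyAct_X, polyAct_C, LinearMap.add_apply,
          LinearMap.sub_apply, Module.End.mul_apply, Module.End.mul_apply,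
          Module.algebraMap_end_apply]
        abel
      · simp only [XN_apply, Prod.snd_sub, map_neg, sub_neg_eq_add, neg_add_cancel]
    rw [h3, haD, polyAct_diag_apply t hcomm, ← ha]
    ext
    · simp only [map_neg]
      rw [h2, neg_zero]
      rfl
    · simp
  -- assemble
  have hmul : ∀ z : H × H, aD (u * u') z = aD u (aD u' z) := fun z => by
    rw [map_mul, Module.End.mul_apply]
  have hmul' : ∀ z : H × H, aD (u * u') z = aD u' (aD u z) := fun z => by
    rw [mul_comm, map_mul, Module.End.mul_apply]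
  have hG : ∀ z : H × H, aD (u * u') (Xop z - aD B z)
      = aD u' (Xop (aD u z) - aD B (aD u z)) := fun z => by
    rw [hmul', map_sub, hXu, hBu]
  have hz : Xop p - aD B p = (Xop p₁ - aD B p₁) - (Xop p₂ - aD B p₂) := by
    rw [hp, map_sub, map_sub]
    abel
  rw [hz, map_sub, hG p₁, e1, map_zero, map_zero, sub_self, map_zero, zero_sub, hmul, e2,
    map_zero, neg_zero]

/-! ### the module `K'` : `K` with `X j₀` acting as `A` -/

section Main

variable (K : Type*) [AddCommGroup K] [Module R K] [Module (MvPolynomial J R) K]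
  [IsScalarTower R (MvPolynomial J R) K]

/-- the operators on `K` : `X j₀ ↦ A`, `X j ↦ X j`. -/
def opsK (A : MvPolynomial J R) (j : J) : Module.End R K :=
  Algebra.lsmul R R K (if j = j₀ then A else MvPolynomial.X j)

theorem opsK_comm (A : MvPolynomial J R) (i j : J) :
    Commute (opsK j₀ K A i) (opsK j₀ K A j) := by
  unfold opsK
  rw [Commute, SemiconjBy, ← map_mul, ← map_mul, mul_comm]

theorem opsK_self (A : MvPolynomial J R) (z : K) : opsK j₀ K A j₀ z = A • z := by
  unfold opsK
  rw [if_pos rfl]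
  rfl

theorem opsK_of_ne (A : MvPolynomial J R) {j : J} (hj : j ≠ j₀) (z : K) :
    opsK j₀ K A j z = (MvPolynomial.X j : MvPolynomial J R) • z := by
  unfold opsK
  rw [if_neg hj]
  rfl

/-- the substitution `X j₀ ↦ A`. -/
def sig (A : MvPolynomial J R) : MvPolynomial J R →ₐ[R] MvPolynomial J R :=
  MvPolynomial.aeval (fun j => if j = j₀ then A else MvPolynomial.X j)

theorem sig_X_self (A : MvPolynomial J R) :
    sig j₀ A (MvPolynomial.X j₀) = A := by
  rw [sig, MvPolynomial.aeval_X, if_pos rfl]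

theorem sig_X_of_ne (A : MvPolynomial J R) {j : J} (hj : j ≠ j₀) :
    sig j₀ A (MvPolynomial.X j) = MvPolynomial.X j := by
  rw [sig, MvPolynomial.aeval_X, if_neg hj]

theorem polyAct_opsK (A w : MvPolynomial J R) (z : K) :
    polyAct (opsK j₀ K A) (opsK_comm j₀ K A) w z = sig j₀ A w • z := by
  have h : polyAct (opsK j₀ K A) (opsK_comm j₀ K A)
      = (Algebra.lsmul R R K).comp (sig j₀ A) := by
    refine MvPolynomial.algHom_ext fun j => ?_
    rw [polyAct_X, AlgHom.comp_apply, sig, MvPolynomial.aeval_X]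
    rfl
  rw [h]
  rfl

/-- `K` with `X j₀` acting as `A`. -/
abbrev Kq (A : MvPolynomial J R) : Type _ := WithOps (opsK j₀ K A) (opsK_comm j₀ K A)

/-- the identification `Kq ≃ K`. -/
abbrev eK (A : MvPolynomial J R) : Kq j₀ K A ≃ₗ[R] K := WithOps.equiv _ _

theorem eK_smul (A w : MvPolynomial J R) (z : Kq j₀ K A) :
    eK j₀ K A (w • z) = sig j₀ A w • eK j₀ K A z := by
  rw [WithOps.smul_def, polyAct_opsK]

theorem ev_sig {k : Type*} [Field k] (ev ev' : MvPolynomial J R →+* k)
    (hC : ∀ r, ev' (MvPolynomial.C r) = ev (MvPolynomial.C r))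
    (hX : ∀ j, j ≠ j₀ → ev' (MvPolynomial.X j) = ev (MvPolynomial.X j))
    (A : MvPolynomial J R) (hA : ev A = ev' (MvPolynomial.X j₀)) (w : MvPolynomial J R) :
    ev (sig j₀ A w) = ev' w := by
  have h : ev.comp (sig j₀ A).toRingHom = ev' := by
    refine MvPolynomial.ringHom_ext (fun r => ?_) (fun j => ?_)
    · rw [RingHom.comp_apply, hC]
      congr 1
      exact (sig j₀ A).commutes r
    · rw [RingHom.comp_apply]
      by_cases hj : j = j₀
      · subst hj
        rw [← hA]
        congr 1
        show sig j A (MvPolynomial.X j) = A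
        rw [sig, MvPolynomial.aeval_X, if_pos rfl]
      · rw [hX j hj]
        congr 1
        show sig j₀ A (MvPolynomial.X j) = MvPolynomial.X j
        rw [sig, MvPolynomial.aeval_X, if_neg hj]
  rw [← h]
  rfl

/-! ### the map `Ψ (x, y) = φ x + (X j₀ - A) • φ y` -/

variable {K} (φ : WithOps t hcomm →ₗ[MvPolynomial J R] K)

/-- `φ` on the underlying module. -/
def phi0 : H →ₗ[R] K :=
  (φ.restrictScalars R).comp (WithOps.equiv t hcomm).symm.toLinearMap

omit [DecidableEq J] in
theorem phi0_apply (x : H) : phi0 t hcomm φ x = φ ((WithOps.equiv t hcomm).symm x) := rfl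

omit [DecidableEq J] in
theorem phi0_equiv (x : WithOps t hcomm) : phi0 t hcomm φ (WithOps.equiv t hcomm x) = φ x := by
  rw [phi0_apply, LinearEquiv.symm_apply_apply]

omit [DecidableEq J] in
theorem phi0_polyAct (w : MvPolynomial J R) (x : H) :
    phi0 t hcomm φ (polyAct t hcomm w x) = w • phi0 t hcomm φ x := by
  rw [phi0_apply, phi0_apply, ← map_smul]
  rfl

omit [DecidableEq J] in
theorem phi0_t (j : J) (x : H) :
    phi0 t hcomm φ (t j x) = (MvPolynomial.X j : MvPolynomial J R) • phi0 t hcomm φ x := by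
  rw [← phi0_polyAct, polyAct_X]

/-- `ψ (x, y) = φ x + B • φ y`. -/
def psi (B : MvPolynomial J R) : H × H →ₗ[R] K :=
  (phi0 t hcomm φ).coprod ((Algebra.lsmul R R K B).comp (phi0 t hcomm φ))

omit [DecidableEq J] in
theorem psi_apply (B : MvPolynomial J R) (p : H × H) :
    psi t hcomm φ B p = phi0 t hcomm φ p.1 + B • phi0 t hcomm φ p.2 := rfl

theorem psi_intertwine (A : MvPolynomial J R)
    (hA : ∀ z : K, (A * (MvPolynomial.X j₀ - A)) • z = q • z) (j : J) (p : H × H) :
    psi t hcomm φ (MvPolynomial.X j₀ - A) (opsN j₀ t q j p)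
      = opsK j₀ K A j (psi t hcomm φ (MvPolynomial.X j₀ - A) p) := by
  by_cases hj : j = j₀
  · subst hj
    rw [opsN_self, opsK_self, psi_apply, psi_apply, XN_apply]
    simp only [map_add, map_neg, map_smul, smul_add, smul_neg]
    rw [phi0_t, ← mul_smul A, hA, sub_smul]
    abel
  · rw [opsN_of_ne j₀ t q hj, opsK_of_ne j₀ K A hj, psi_apply, psi_apply]
    simp only [LinearMap.prodMap_apply, smul_add]
    rw [phi0_t, phi0_t, smul_comm]

/-- `Ψ : N → K'`, linear over the polynomial ring. -/
def Psi (A : MvPolynomial J R) (hA : ∀ z : K, (A * (MvPolynomial.X j₀ - A)) • z = q • z) :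
    WithOps (opsN j₀ t q) (opsN_comm j₀ t q hcomm) →ₗ[MvPolynomial J R] Kq j₀ K A :=
  WithOps.map (psi t hcomm φ (MvPolynomial.X j₀ - A)) (psi_intertwine j₀ t q hcomm φ A hA)

theorem eK_Psi (A : MvPolynomial J R)
    (hA : ∀ z : K, (A * (MvPolynomial.X j₀ - A)) • z = q • z)
    (n : WithOps (opsN j₀ t q) (opsN_comm j₀ t q hcomm)) :
    eK j₀ K A (Psi j₀ t q hcomm φ A hA n)
      = psi t hcomm φ (MvPolynomial.X j₀ - A) (WithOps.equiv _ _ n) := rfl

omit [DecidableEq J] in
theorem mul_smul_of_root (A : MvPolynomial J R)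
    (hAK : ∀ z : K, (A * A - MvPolynomial.X j₀ * A + MvPolynomial.C q) • z = 0) (z : K) :
    (A * (MvPolynomial.X j₀ - A)) • z = q • z := by
  have h : A * (MvPolynomial.X j₀ - A)
      = MvPolynomial.C q - (A * A - MvPolynomial.X j₀ * A + MvPolynomial.C q) := by ring
  rw [h, sub_smul, hAK, sub_zero, ← MvPolynomial.algebraMap_eq, algebraMap_smul]

/-! ### `Ψ` is a localisation of `N` at `ev'` -/

section Loc

variable (S : Submonoid (MvPolynomial J R)) [IsLocalizedModule S φ]

include φ in
omit [DecidableEq J] [Module R K] [IsScalarTower R (MvPolynomial J R) K] in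
theorem bijective_smul_of_mem (u : MvPolynomial J R) (hu : u ∈ S) :
    Function.Bijective fun z : K => u • z := by
  have h := IsLocalizedModule.map_units φ ⟨u, hu⟩
  rw [Module.End.isUnit_iff] at h
  exact h

include S in
omit [DecidableEq J] in
theorem surjective_of_finite [Module.Finite R K] : Function.Surjective φ := by
  intro y
  obtain ⟨⟨m, s⟩, hms⟩ := IsLocalizedModule.surj S φ y
  obtain ⟨v, hv⟩ := LocalAlg.exists_inv_smul_of_bijective R (s : MvPolynomial J R)
    (bijective_smul_of_mem t hcomm φ S s s.2)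
  refine ⟨v • m, ?_⟩
  rw [map_smul, ← hms]
  exact hv y

omit [DecidableEq J] in
theorem exists_of_phi0_eq_zero (x : H) (hx : phi0 t hcomm φ x = 0) :
    ∃ u ∈ S, polyAct t hcomm u x = 0 := by
  rw [phi0_apply] at hx
  obtain ⟨u, hu⟩ := (IsLocalizedModule.eq_zero_iff S φ).mp hx
  refine ⟨u, u.2, ?_⟩
  have h := congrArg (WithOps.equiv t hcomm) hu
  rwa [Submonoid.smul_def, WithOps.smul_def, LinearEquiv.apply_symm_apply, map_zero] at h

variable {k : Type*} [Field k] (ev ev' : MvPolynomial J R →+* k)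
  (hC : ∀ r, ev' (MvPolynomial.C r) = ev (MvPolynomial.C r))
  (hX : ∀ j, j ≠ j₀ → ev' (MvPolynomial.X j) = ev (MvPolynomial.X j))
  (ha : ev' (MvPolynomial.X j₀) ^ 2 - ev (MvPolynomial.X j₀) * ev' (MvPolynomial.X j₀)
      + ev (MvPolynomial.C q) = 0)
  (ha0 : ev' (MvPolynomial.X j₀) ≠ 0)
  (hsimple : 2 * ev' (MvPolynomial.X j₀) - ev (MvPolynomial.X j₀) ≠ 0)
  (hS : ∀ u, u ∈ S ↔ ev u ≠ 0)
  (S' : Submonoid (MvPolynomial J R)) (hS' : ∀ u, u ∈ S' ↔ ev' u ≠ 0)

include hC hX ha ha0 hsimple hS hS' in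
/-- **`Ψ` is a localisation of `N` at the character `ev'`.** -/
theorem isLocalizedModule_Psi [Module.Finite R K] (A : MvPolynomial J R)
    (hAev : ev A = ev' (MvPolynomial.X j₀))
    (hAK : ∀ z : K, (A * A - MvPolynomial.X j₀ * A + MvPolynomial.C q) • z = 0) :
    IsLocalizedModule S' (Psi j₀ t q hcomm φ A (mul_smul_of_root j₀ q A hAK)) := by
  classical
  set B : MvPolynomial J R := MvPolynomial.X j₀ - A with hB
  set Ψ := Psi j₀ t q hcomm φ A (mul_smul_of_root j₀ q A hAK) with hΨ
  have hevB : ev B = ev (MvPolynomial.X j₀) - ev' (MvPolynomial.X j₀) := by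
    rw [hB, map_sub, hAev]
  refine ⟨fun s => ?_, fun y => ?_, fun {x₁ x₂} h => ?_⟩
  · -- units
    rw [Module.End.isUnit_iff]
    have hmem : sig j₀ A (s : MvPolynomial J R) ∈ S := by
      rw [hS, ev_sig j₀ ev ev' hC hX A hAev]
      exact (hS' _).mp s.2
    have hb := bijective_smul_of_mem t hcomm φ S _ hmem
    have hfun : (⇑(algebraMap (MvPolynomial J R) (Module.End (MvPolynomial J R) (Kq j₀ K A))
        (s : MvPolynomial J R)))
        = (eK j₀ K A).symm ∘ (fun z : K => sig j₀ A (s : MvPolynomial J R) • z) ∘ (eK j₀ K A) := by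
      funext z
      apply (eK j₀ K A).injective
      simp only [Function.comp_apply, LinearEquiv.apply_symm_apply, Module.algebraMap_end_apply]
      exact eK_smul j₀ K A s z
    rw [hfun]
    exact (eK j₀ K A).symm.bijective.comp (hb.comp (eK j₀ K A).bijective)
  · -- surjectivity
    obtain ⟨m, hm⟩ := surjective_of_finite t hcomm φ S (eK j₀ K A y)
    refine ⟨⟨(WithOps.equiv _ _).symm (WithOps.equiv t hcomm m, 0), 1⟩, ?_⟩
    rw [one_smul]
    apply (eK j₀ K A).injective
    rw [hΨ, eK_Psi, LinearEquiv.apply_symm_apply, psi_apply]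
    simp only [map_zero, smul_zero, add_zero]
    rw [phi0_equiv, hm]
  · -- the kernel
    set n := x₁ - x₂ with hn
    have hΨn : Ψ n = 0 := by rw [hn, map_sub, h, sub_self]
    set p : H × H := WithOps.equiv _ _ n with hp
    have hpsi : psi t hcomm φ B p = 0 := by
      have := congrArg (eK j₀ K A) hΨn
      rwa [hΨ, eK_Psi, map_zero] at this
    rw [psi_apply] at hpsi
    obtain ⟨u, huS, hu⟩ := exists_of_phi0_eq_zero t hcomm φ S
      (p.1 + polyAct t hcomm B p.2) (by rw [map_add, phi0_polyAct, hpsi])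
    have hfB : B * B - MvPolynomial.X j₀ * B + MvPolynomial.C q
        = A * A - MvPolynomial.X j₀ * A + MvPolynomial.C q := by
      rw [hB]
      ring
    obtain ⟨u', hu'S, hu'⟩ := exists_of_phi0_eq_zero t hcomm φ S
      (polyAct t hcomm (B * B - MvPolynomial.X j₀ * B + MvPolynomial.C q) p.2)
      (by rw [phi0_polyAct, hfB, hAK])
    have hker := kernel_pointwise j₀ t q hcomm B u u' p hu hu'
    obtain ⟨d₁, w, hw, hevw⟩ := exists_tilde j₀ t q hcomm ev ev' hC hX ha (u * u')
    obtain ⟨d₂, B', hB', hevB'⟩ := exists_tilde j₀ t q hcomm ev ev' hC hX ha B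
    set c : MvPolynomial J R := w * (MvPolynomial.X j₀ ^ (d₂ + 1) - B') with hc
    have hcS : c ∈ S' := by
      rw [hS', hc, map_mul, map_sub, map_pow, hevw, hevB', hevB, map_mul]
      have e : ev' (MvPolynomial.X j₀) ^ (d₂ + 1)
          - ev' (MvPolynomial.X j₀) ^ d₂ * (ev (MvPolynomial.X j₀) - ev' (MvPolynomial.X j₀))
          = ev' (MvPolynomial.X j₀) ^ d₂
            * (2 * ev' (MvPolynomial.X j₀) - ev (MvPolynomial.X j₀)) := by ring
      rw [e]
      exact mul_ne_zero (mul_ne_zero (pow_ne_zero _ ha0)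
        (mul_ne_zero ((hS u).mp huS) ((hS u').mp hu'S)))
        (mul_ne_zero (pow_ne_zero _ ha0) hsimple)
    have hcp : polyAct (opsN j₀ t q) (opsN_comm j₀ t q hcomm) c p = 0 := by
      have e1 : polyAct (opsN j₀ t q) (opsN_comm j₀ t q hcomm)
          (MvPolynomial.X j₀ ^ (d₂ + 1) - B') p
          = ((XN (t j₀) q) ^ d₂) (XN (t j₀) q p
              - polyAct (diagOps t) (diagOps_comm t hcomm) B p) := by
        rw [map_sub, map_pow, polyAct_X, opsN_self, LinearMap.sub_apply, hB', pow_succ,
          Module.End.mul_apply]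
        exact (map_sub _ _ _).symm
      have e2 : ∀ z : H × H, polyAct (diagOps t) (diagOps_comm t hcomm) (u * u')
          (((XN (t j₀) q) ^ d₂) z)
          = ((XN (t j₀) q) ^ d₂) (polyAct (diagOps t) (diagOps_comm t hcomm) (u * u') z) := by
        intro z
        have := LinearMap.congr_fun
          ((commute_XN_polyAct_diag j₀ t q hcomm (u * u')).pow_left d₂).eq z
        rw [Module.End.mul_apply, Module.End.mul_apply] at this
        exact this.symm
      rw [hc, map_mul, Module.End.mul_apply, e1, hw, e2, hker, map_zero, map_zero]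
    refine ⟨⟨c, hcS⟩, ?_⟩
    rw [← sub_eq_zero, ← smul_sub, Submonoid.mk_smul]
    apply (WithOps.equiv (opsN j₀ t q) (opsN_comm j₀ t q hcomm)).injective
    rw [WithOps.smul_def, map_zero]
    exact hcp

include hC hX ha ha0 hsimple hS hS' in
/-- **THE TAYLOR-WILES DESCENT, SECOND HALF (abstract form).**  `N = H × H` localised at `ev'` is
`K = H` localised at `ev`, compatibly with `X j`, `j ≠ j₀`; `X j₀` goes to the Hensel root `A`. -/
theorem exists_equiv [IsLocalRing R] [IsNoetherianRing R]
    [IsAdicComplete (IsLocalRing.maximalIdeal R) R] [Module.Finite R K]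
    (hsurj : Function.Surjective ev)
    (hevR : ∀ r ∈ IsLocalRing.maximalIdeal R, ev (MvPolynomial.C r) = 0) :
    ∃ (A : MvPolynomial J R)
      (e : LocalizedModule S' (WithOps (opsN j₀ t q) (opsN_comm j₀ t q hcomm)) ≃ₗ[R] K),
      ev A = ev' (MvPolynomial.X j₀) ∧
      (∀ z : K, (A * A - MvPolynomial.X j₀ * A + MvPolynomial.C q) • z = 0) ∧
      (∀ j, j ≠ j₀ → ∀ z, e ((MvPolynomial.X j : MvPolynomial J R) • z)
          = (MvPolynomial.X j : MvPolynomial J R) • e z) ∧
      (∀ z, e ((MvPolynomial.X j₀ : MvPolynomial J R) • z) = A • e z) ∧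
      (∀ n, e (LocalizedModule.mkLinearMap S' _ n)
          = psi t hcomm φ (MvPolynomial.X j₀ - A) (WithOps.equiv _ _ n)) := by
  classical
  have hunit : ∀ u : MvPolynomial J R, ev u ≠ 0 → Function.Bijective fun z : K => u • z :=
    fun u hu => bijective_smul_of_mem t hcomm φ S u ((hS u).mpr hu)
  obtain ⟨A, hAev, hAK⟩ := LocalAlg.exists_hensel_root (R := R) (K := K) ev hsurj
    (fun r hr => by rw [MvPolynomial.algebraMap_eq]; exact hevR r hr) hunit
    (MvPolynomial.X j₀) (MvPolynomial.C q) (ev' (MvPolynomial.X j₀)) ha hsimple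
  have := isLocalizedModule_Psi j₀ t q hcomm φ S ev ev' hC hX ha ha0 hsimple hS S' hS' A hAev hAK
  set Ψ := Psi j₀ t q hcomm φ A (mul_smul_of_root j₀ q A hAK) with hΨ
  set e₀ := IsLocalizedModule.iso S' Ψ with he₀
  have hX' : ∀ (w : MvPolynomial J R) z,
      ((e₀.restrictScalars R).trans (eK j₀ K A)) (w • z)
        = sig j₀ A w • ((e₀.restrictScalars R).trans (eK j₀ K A)) z := by
    intro w z
    rw [LinearEquiv.trans_apply, LinearEquiv.trans_apply, LinearEquiv.restrictScalars_apply,
      LinearEquiv.restrictScalars_apply, map_smul, eK_smul]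
  refine ⟨A, (e₀.restrictScalars R).trans (eK j₀ K A), hAev, hAK, fun j hj z => ?_, fun z => ?_,
    fun n => ?_⟩
  · rw [hX', sig_X_of_ne j₀ A hj]
  · rw [hX', sig_X_self]
  · rw [LinearEquiv.trans_apply, LinearEquiv.restrictScalars_apply,
      LocalizedModule.mkLinearMap_apply, he₀, IsLocalizedModule.iso_mk_one, hΨ, eK_Psi]

end Loc

end Main

end Fermat.Agent.S43.Hecke.Descent.Hensel
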