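/-
PROJECT R (S43, row 37), block L3 (Hecke side), brick H8/D2 (helper6; helper24's literal #6309):
THE TAYLOR-WILES DESCENT, SECOND HALF, IN THE VOCABULARY OF `Hecke/Loc.lean`.

`θ' := Function.update θ j₀ α` with `θ j₀ = α + q̄ α⁻¹`, `α ≠ 0`, `α ≠ q̄ α⁻¹` :
`(Nq hy)_{θ'} ≃ₗ[R] (WithOps t)_{θ}`, compatibly with `X j`, `j ≠ j₀`.
-/
import Mathlib
import Fermat.Agent.S43.Hecke.Loc
import Fermat.Agent.S43.Hecke.FinLoc
import Fermat.Agent.S43.Hecke.Descent.Hensel

set_option autoImplicit false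

noncomputable section

namespace Fermat.Agent.S43.Hecke.Descent.HenselLoc

open Fermat.Agent.S43.Hecke.PolyModule Fermat.Agent.S43.Hecke.Loc
open Fermat.Agent.S43.Hecke.Descent.Split Fermat.Agent.S43.Hecke.Descent.Hensel

variable {R : Type} [CommRing R] [IsLocalRing R] [IsNoetherianRing R]
  [IsAdicComplete (IsLocalRing.maximalIdeal R) R]
  {J : Type} [DecidableEq J] {j₀ : J}
  {H : Type*} [AddCommGroup H] [Module R H] [Module.Finite R H]

omit [IsLocalRing R] [IsNoetherianRing R] [IsAdicComplete (IsLocalRing.maximalIdeal R) R]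
  [DecidableEq J] in
theorem finite_withOps (t : J → Module.End R H) (hcomm : ∀ i j, Commute (t i) (t j)) :
    Module.Finite R (WithOps t hcomm) :=
  Module.Finite.equiv (WithOps.equiv t hcomm).symm

/-- **D2, on a commuting family** : the rich form (Hensel root `A`, formula on `N`). -/
theorem exists_equiv_update' (t : J → Module.End R H) (q : R)
    (hcomm : ∀ i j, Commute (t i) (t j))
    (θ : J → IsLocalRing.ResidueField R) (α : IsLocalRing.ResidueField R)
    (hθ : θ j₀ = α + IsLocalRing.residue R q * α⁻¹) (hα : α ≠ 0)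
    (hne : α ≠ IsLocalRing.residue R q * α⁻¹) :
    ∃ (A : MvPolynomial J R)
      (e : LocalizedModule (Sθ (Function.update θ j₀ α))
          (WithOps (opsN j₀ t q) (opsN_comm j₀ t q hcomm))
        ≃ₗ[R] LocalizedModule (Sθ θ) (WithOps t hcomm)),
      evalHom θ A = α ∧
      (∀ z : LocalizedModule (Sθ θ) (WithOps t hcomm),
        (A * A - MvPolynomial.X j₀ * A + MvPolynomial.C q) • z = 0) ∧
      (∀ j, j ≠ j₀ → ∀ z, e ((MvPolynomial.X j : MvPolynomial J R) • z)
          = (MvPolynomial.X j : MvPolynomial J R) • e z) ∧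
      (∀ z, e ((MvPolynomial.X j₀ : MvPolynomial J R) • z) = A • e z) ∧
      (∀ n, e (LocalizedModule.mkLinearMap _ _ n)
          = psi t hcomm (LocalizedModule.mkLinearMap (Sθ θ) (WithOps t hcomm))
              (MvPolynomial.X j₀ - A) (WithOps.equiv _ _ n)) := by
  classical
  have : Module.Finite R (WithOps t hcomm) := finite_withOps t hcomm
  have : Module.Finite R (LocalizedModule (Sθ θ) (WithOps t hcomm)) :=
    Fermat.Agent.S43.Hecke.FinLoc.finite_localizedModule (𝒪 := R) (maxId θ)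
  have hX0 : evalHom (Function.update θ j₀ α) (MvPolynomial.X j₀) = α := by
    rw [evalHom_X, Function.update_self]
  obtain ⟨A, e, h1, h2, h3, h4, h5⟩ := exists_equiv j₀ t q hcomm
    (LocalizedModule.mkLinearMap (Sθ θ) (WithOps t hcomm)) (Sθ θ)
    (evalHom θ) (evalHom (Function.update θ j₀ α))
    (fun r => by rw [evalHom_C, evalHom_C])
    (fun j hj => by rw [evalHom_X, evalHom_X, Function.update_of_ne hj])
    (by
      rw [hX0, evalHom_X, evalHom_C, hθ]
      field_simp
      ring)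
    (by rw [hX0]; exact hα)
    (by
      rw [hX0, evalHom_X, hθ]
      intro h
      apply hne
      linear_combination h)
    (mem_Sθ_iff θ) (Sθ (Function.update θ j₀ α)) (mem_Sθ_iff _)
    (evalHom_surjective θ)
    (fun r hr => by
      rw [evalHom_C]
      exact (IsLocalRing.residue_eq_zero_iff r).mpr hr)
  exact ⟨A, e, by rw [h1, hX0], h2, h3, h4, h5⟩

/-- **D2 (helper24's literal).** -/
theorem exists_equiv_update {H' : Type*} [AddCommGroup H'] [Module R H']
    {t : J → Module.End R H} {t' : J → Module.End R H'} {q : R}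
    {α1 α2 : H →ₗ[R] H'} {β1 β2 : H' →ₗ[R] H} (hy : Hyp j₀ t t' q α1 α2 β1 β2)
    (θ : J → IsLocalRing.ResidueField R) (α : IsLocalRing.ResidueField R)
    (hθ : θ j₀ = α + IsLocalRing.residue R q * α⁻¹) (hα : α ≠ 0)
    (hne : α ≠ IsLocalRing.residue R q * α⁻¹) :
    ∃ e : LocalizedModule (Sθ (Function.update θ j₀ α)) (Nq hy)
        ≃ₗ[R] LocalizedModule (Sθ θ) (WithOps t hy.comm),
      ∀ j, j ≠ j₀ → ∀ z, e ((MvPolynomial.X j : MvPolynomial J R) • z)
          = (MvPolynomial.X j : MvPolynomial J R) • e z := by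
  obtain ⟨A, e, -, -, h3, -, -⟩ := exists_equiv_update' (j₀ := j₀) t q hy.comm θ α hθ hα hne
  exact ⟨e, h3⟩

end Fermat.Agent.S43.Hecke.Descent.HenselLoc
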