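/-
PROJECT R (S43, row 37), block L3 (Hecke side, leader helper24), brick H8 = Taylor-Wiles descent,
part D4 (helper12): THE STEP AND THE ITERATION.

(a) `step` `= D2 ∘ D1⁻¹` : for `hy : Split.Hyp j₀ t t' q α1 α2 β1 β2` (helper6's D1) over a local
ring `R`, a system of eigenvalues `θ : J → k` and `α : k` with `α ≠ 0`, `α² ≠ 1`, `(q̄ α⁻¹)² ≠ 1`,
the localisation of `H'` at `θ' = θ[j₀ ↦ α]` is the localisation of `H` at `θ`, `R`-linearly and
compatibly with the operators `X j`, `j ≠ j₀`.  D1 = `Split.bijective_map_iota` (with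
`s₁, s₂ ∉ 𝔪_θ'` : `s1_mem`, `s2_mem`); D2 = the proposition `D2Concl hy θ α` (the conclusion of
helper6's `Descent/Hensel`), a hypothesis here.

(b) `descent_of_schema` : the iteration over a list `Q` of indices, at `H_M = Hom(Γ₀(M), R)` with
`X j ↦ τ_{p j}` (`HL R p hp M`; helper12's `Descent/Inst.tau`, helper20's `InstPoly.hyp`):
`(H_{N ∏_{j ∈ Q} p j})_{θ_Q} ≃ₗ[R] (H_N)_θ`, compatibly with `X j`, `j ∉ Q`;
`θ_Q j = if j ∈ Q then α j else θ j` (`thetaL`, `thetaL_apply`), level `lvl p N Q = N ∏ p j`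
(`lvl_eq`).  `descent_of_schema'` : the same for any `M = N * (Q.map p).prod` and any `θQ` with
`θQ j = if j ∈ Q then α j else θ j`.  `D2Schema` = D2 at every level; `d2Schema` : it is a theorem (helper6's
`HenselLoc.exists_equiv_update` + `finite_hom`) over a complete noetherian local `R`; `descent`,
`descent'` : the two forms of (b) with no hypothesis left.

Also `finite_hom` : `Hom(Γ₀(M), A)` is finite over a noetherian `R` (`M ≠ 0`, `A` finite), the
finiteness binder of D2.
-/
import Mathlib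
import Fermat.Agent.S22.Gamma0FG
import Fermat.Agent.S43.Hecke.Loc
import Fermat.Agent.S43.Hecke.Descent.Split
import Fermat.Agent.S43.Hecke.Descent.InstPoly
import Fermat.Agent.S43.Hecke.Descent.HenselLoc

set_option autoImplicit false

open CongruenceSubgroup
open scoped MatrixGroups

noncomputable section

namespace Fermat.Agent.S43.Hecke.Descent.Main

open Fermat.Agent.S43.Hecke.PolyModule Fermat.Agent.S43.Hecke.Loc
  Fermat.Agent.S43.Hecke.Descent.Split Fermat.Agent.S43.Hecke.Descent.Inst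
  Fermat.Agent.S43.Hecke.Descent.InstPoly

/-! ### (a) the step -/

section Step

variable {R : Type} [CommRing R] [IsLocalRing R] {J : Type} [DecidableEq J] {j₀ : J}
  {H H' : Type} [AddCommGroup H] [Module R H] [AddCommGroup H'] [Module R H']
  {t : J → Module.End R H} {t' : J → Module.End R H'} {q : R}
  {α1 α2 : H →ₗ[R] H'} {β1 β2 : H' →ₗ[R] H}

omit [DecidableEq J] in
theorem evalHom_s1 (θ : J → IsLocalRing.ResidueField R) :
    evalHom θ (s1 j₀ q) = (IsLocalRing.residue R q + 1) ^ 2 * θ j₀ ^ 2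
      - (θ j₀ ^ 2 + IsLocalRing.residue R q) ^ 2 := by
  unfold s1
  simp only [map_sub, map_mul, map_pow, map_add, map_one, evalHom_X, evalHom_C]

omit [DecidableEq J] in
theorem evalHom_s2 (θ : J → IsLocalRing.ResidueField R) :
    evalHom θ (s2 (R := R) j₀) = θ j₀ ^ 2 - 1 := by
  unfold s2
  simp only [map_sub, map_pow, map_one, evalHom_X]

/-- `s₁ ∉ 𝔪_θ'` : the Taylor-Wiles condition -/
theorem s1_mem (θ : J → IsLocalRing.ResidueField R) (α : IsLocalRing.ResidueField R)
    (hα : α ≠ 0) (hα2 : α ^ 2 ≠ 1) (hβ2 : (IsLocalRing.residue R q * α⁻¹) ^ 2 ≠ 1) :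
    s1 j₀ q ∈ Sθ (Function.update θ j₀ α) := by
  rw [mem_Sθ_iff, evalHom_s1, Function.update_self]
  have hq : IsLocalRing.residue R q = α * (IsLocalRing.residue R q * α⁻¹) := by
    field_simp
  have h := s1_eval_identity α (IsLocalRing.residue R q * α⁻¹)
  rw [← hq] at h
  rw [h]
  refine mul_ne_zero (mul_ne_zero (pow_ne_zero 2 hα) ?_) ?_
  · exact sub_ne_zero.mpr (Ne.symm hα2)
  · exact sub_ne_zero.mpr (Ne.symm hβ2)

theorem s2_mem (θ : J → IsLocalRing.ResidueField R) (α : IsLocalRing.ResidueField R)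
    (hα2 : α ^ 2 ≠ 1) : s2 (R := R) j₀ ∈ Sθ (Function.update θ j₀ α) := by
  rw [mem_Sθ_iff, evalHom_s2, Function.update_self]
  exact sub_ne_zero.mpr hα2

/-- the conclusion of D2 (`Descent/Hensel`), as a proposition: the localisation of `N = H × H` at
`θ' = θ[j₀ ↦ α]` is the localisation of `H` at `θ`, compatibly with the operators away from `j₀` -/
def D2Concl (hy : Hyp j₀ t t' q α1 α2 β1 β2) (θ : J → IsLocalRing.ResidueField R)
    (α : IsLocalRing.ResidueField R) : Prop :=
  ∃ e : LocalizedModule (Sθ (Function.update θ j₀ α)) (Nq hy) ≃ₗ[R]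
      LocalizedModule (Sθ θ) (WithOps t hy.comm),
    ∀ j, j ≠ j₀ → ∀ z, e ((MvPolynomial.X j : MvPolynomial J R) • z) =
      (MvPolynomial.X j : MvPolynomial J R) • e z

/-- **D4 (a), the step** `= D2 ∘ D1⁻¹` : the localisation of `H'` (level `N q`) at
`θ' = θ[j₀ ↦ α]` is the localisation of `H` (level `N`) at `θ`, compatibly with the operators away
from `j₀`. -/
theorem step (hy : Hyp j₀ t t' q α1 α2 β1 β2) (θ : J → IsLocalRing.ResidueField R)
    (α : IsLocalRing.ResidueField R) (hα : α ≠ 0) (hα2 : α ^ 2 ≠ 1)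
    (hβ2 : (IsLocalRing.residue R q * α⁻¹) ^ 2 ≠ 1) (hD2 : D2Concl hy θ α) :
    ∃ e : LocalizedModule (Sθ (Function.update θ j₀ α)) (WithOps t' hy.comm') ≃ₗ[R]
        LocalizedModule (Sθ θ) (WithOps t hy.comm),
      ∀ j, j ≠ j₀ → ∀ z, e ((MvPolynomial.X j : MvPolynomial J R) • z) =
        (MvPolynomial.X j : MvPolynomial J R) • e z := by
  obtain ⟨e2, he2⟩ := hD2
  have hbij := bijective_map_iota hy (Sθ (Function.update θ j₀ α)) (s1_mem θ α hα hα2 hβ2)
    (s2_mem θ α hα2)
    (LocalizedModule.mkLinearMap (Sθ (Function.update θ j₀ α)) (Nq hy))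
    (LocalizedModule.mkLinearMap (Sθ (Function.update θ j₀ α)) (Hq hy))
  let e1 : LocalizedModule (Sθ (Function.update θ j₀ α)) (Nq hy) ≃ₗ[MvPolynomial J R]
      LocalizedModule (Sθ (Function.update θ j₀ α)) (Hq hy) := LinearEquiv.ofBijective _ hbij
  refine ⟨(e1.symm.restrictScalars R).trans e2, fun j hj z => ?_⟩
  rw [LinearEquiv.trans_apply, LinearEquiv.restrictScalars_apply, map_smul, he2 j hj]
  rfl

end Step

/-! ### finiteness of `Hom(Γ₀(M), A)` -/

section Finite

variable (R : Type*) [CommRing R] (A : Type*) [AddCommGroup A] [Module R A]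

/-- evaluation on a family of elements of the group -/
def evalAt {G : Type*} [Group G] {ι : Type*} (g : ι → G) :
    (Additive G →+ A) →ₗ[R] (ι → A) where
  toFun φ i := φ (Additive.ofMul (g i))
  map_add' _ _ := rfl
  map_smul' _ _ := rfl

theorem evalAt_injective {G : Type*} [Group G] (S : Set G) (hS : Subgroup.closure S = ⊤) :
    Function.Injective (evalAt R A (fun s : S => (s : G))) := by
  rw [← LinearMap.ker_eq_bot, LinearMap.ker_eq_bot']
  intro φ hφ
  have h1 : ∀ s ∈ S, φ (Additive.ofMul s) = 0 := fun s hs => congrFun hφ ⟨s, hs⟩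
  have h2 : ∀ g : G, φ (Additive.ofMul g) = 0 := by
    intro g
    have hg : g ∈ Subgroup.closure S := by rw [hS]; exact Subgroup.mem_top g
    induction hg using Subgroup.closure_induction with
    | mem x hx => exact h1 x hx
    | one => exact map_zero φ
    | mul x y _ _ hx hy => rw [ofMul_mul, map_add, hx, hy, add_zero]
    | inv x _ hx => rw [ofMul_inv, map_neg, hx, neg_zero]
  ext g
  exact h2 (Additive.toMul g)

/-- **`Hom(Γ₀(M), A)` is finite over a noetherian ring** -/
theorem finite_hom (M : ℕ) [NeZero M] [IsNoetherianRing R] [Module.Finite R A] :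
    Module.Finite R (Additive (Gamma0 M) →+ A) := by
  obtain ⟨S, hS⟩ := Fermat.Agent.S22.Gamma0FG.exists_finset_closure_eq_top M
  exact Module.Finite.of_injective (evalAt R A (fun s : (S : Set (Gamma0 M)) => (s : Gamma0 M)))
    (evalAt_injective R A _ hS)

end Finite

/-! ### (b) the iteration -/

section Iterate

variable (R : Type) [CommRing R] [IsLocalRing R] {J : Type} [DecidableEq J]
  (p : J → ℕ) (hp : ∀ j, (p j).Prime)

/-- the level `N ∏_{j ∈ Q} p j`, by recursion on the list -/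
def lvl (N : ℕ) : List J → ℕ
  | [] => N
  | j :: Q => lvl N Q * p j

omit [DecidableEq J] in
theorem lvl_eq (N : ℕ) (Q : List J) : lvl p N Q = N * (Q.map p).prod := by
  induction Q with
  | nil => simp [lvl]
  | cons j Q ih =>
    simp only [lvl, ih, List.map_cons, List.prod_cons]
    ring

omit [DecidableEq J] in
include hp in
theorem lvl_ne_zero {N : ℕ} (hN : N ≠ 0) (Q : List J) : lvl p N Q ≠ 0 := by
  induction Q with
  | nil => exact hN
  | cons j Q ih => exact mul_ne_zero ih (hp j).ne_zero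

omit [DecidableEq J] in
include hp in
theorem not_dvd_lvl {N r : ℕ} (hr : r.Prime) (hrN : ¬ r ∣ N) (Q : List J)
    (hQ : ∀ j ∈ Q, p j ≠ r) : ¬ r ∣ lvl p N Q := by
  induction Q with
  | nil => exact hrN
  | cons j Q ih =>
    intro h
    rcases (Nat.Prime.dvd_mul hr).mp h with h | h
    · exact ih (fun i hi => hQ i (List.mem_cons_of_mem _ hi)) h
    · exact hQ j List.mem_cons_self ((Nat.prime_dvd_prime_iff_eq hr (hp j)).mp h).symm

variable {R}

/-- the system of eigenvalues at level `lvl N Q` -/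
def thetaL (θ α : J → IsLocalRing.ResidueField R) : List J → J → IsLocalRing.ResidueField R
  | [] => θ
  | j :: Q => Function.update (thetaL θ α Q) j (α j)

theorem thetaL_apply (θ α : J → IsLocalRing.ResidueField R) (Q : List J) (j : J) :
    thetaL θ α Q j = if j ∈ Q then α j else θ j := by
  induction Q with
  | nil => simp [thetaL]
  | cons i Q ih =>
    simp only [thetaL, Function.update_apply, List.mem_cons]
    by_cases h : j = i
    · subst h; simp
    · simp [h, ih]

theorem thetaL_of_notMem (θ α : J → IsLocalRing.ResidueField R) {Q : List J} {j : J}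
    (hj : j ∉ Q) : thetaL θ α Q j = θ j := by
  rw [thetaL_apply, if_neg hj]

variable (R)

/-- `Hom(Γ₀(M), R)` as a module over the polynomial Hecke algebra, `X j ↦ τ_{p j}` -/
abbrev HL (M : ℕ) : Type :=
  WithOps (fun j => tau R R M (p j) (hp j)) (fun i j => tau_commute R R M (hp i) (hp j))

/-- the conclusion of D2 at every level, for the family `τ_{p j}` (a hypothesis until
`Descent/Hensel` lands) -/
def D2Schema (hinj : Function.Injective p) : Prop :=
  ∀ (M : ℕ) (_ : M ≠ 0) (j₀ : J) (hqM : ¬ p j₀ ∣ M) (θ : J → IsLocalRing.ResidueField R)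
    (a : IsLocalRing.ResidueField R),
    θ j₀ = a + IsLocalRing.residue R ((p j₀ : ℕ) : R) * a⁻¹ → a ≠ 0 →
    a ≠ IsLocalRing.residue R ((p j₀ : ℕ) : R) * a⁻¹ →
    D2Concl (hyp R R p hp j₀ hqM (fun _ hj h => hj (hinj h))) θ a

/-- the Taylor-Wiles conditions at the index `j` -/
structure Good (θ α : J → IsLocalRing.ResidueField R) (j : J) : Prop where
  sum : θ j = α j + IsLocalRing.residue R ((p j : ℕ) : R) * (α j)⁻¹
  ne_zero : α j ≠ 0
  ne : α j ≠ IsLocalRing.residue R ((p j : ℕ) : R) * (α j)⁻¹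
  sq : α j ^ 2 ≠ 1
  sq' : (IsLocalRing.residue R ((p j : ℕ) : R) * (α j)⁻¹) ^ 2 ≠ 1

/-- **D4 (b), the iteration** (from the schema of D2) -/
theorem descent_of_schema (hinj : Function.Injective p) (hD2 : D2Schema R p hp hinj)
    {N : ℕ} (hN : N ≠ 0) (θ α : J → IsLocalRing.ResidueField R) (Q : List J) (hQ : Q.Nodup)
    (hQN : ∀ j ∈ Q, ¬ p j ∣ N) (hgood : ∀ j ∈ Q, Good R p θ α j) :
    ∃ e : LocalizedModule (Sθ (thetaL θ α Q)) (HL R p hp (lvl p N Q)) ≃ₗ[R]
        LocalizedModule (Sθ θ) (HL R p hp N),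
      ∀ j, j ∉ Q → ∀ z, e ((MvPolynomial.X j : MvPolynomial J R) • z) =
        (MvPolynomial.X j : MvPolynomial J R) • e z := by
  induction Q with
  | nil => exact ⟨LinearEquiv.refl R _, fun j _ z => rfl⟩
  | cons j₀ Q ih =>
    have hj₀ : j₀ ∉ Q := (List.nodup_cons.mp hQ).1
    obtain ⟨e2, he2⟩ := ih (List.nodup_cons.mp hQ).2
      (fun j hj => hQN j (List.mem_cons_of_mem _ hj))
      (fun j hj => hgood j (List.mem_cons_of_mem _ hj))
    have hg := hgood j₀ List.mem_cons_self
    have hqM : ¬ p j₀ ∣ lvl p N Q :=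
      not_dvd_lvl p hp (hp j₀) (hQN j₀ List.mem_cons_self) Q
        (fun j hj h => hj₀ (by rw [← hinj h]; exact hj))
    have hθ : thetaL θ α Q j₀ = α j₀ + IsLocalRing.residue R ((p j₀ : ℕ) : R) * (α j₀)⁻¹ := by
      rw [thetaL_of_notMem θ α hj₀]
      exact hg.sum
    obtain ⟨e1, he1⟩ := step (hyp R R p hp j₀ hqM (fun _ hj h => hj (hinj h)))
      (thetaL θ α Q) (α j₀) hg.ne_zero hg.sq hg.sq'
      (hD2 (lvl p N Q) (lvl_ne_zero p hp hN Q) j₀ hqM (thetaL θ α Q) (α j₀) hθ hg.ne_zero hg.ne)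
    refine ⟨e1.trans e2, fun j hj z => ?_⟩
    have hj1 : j ≠ j₀ := fun h => hj (h ▸ List.mem_cons_self)
    have hj2 : j ∉ Q := fun h => hj (List.mem_cons_of_mem _ h)
    exact (congrArg e2 (he1 j hj1 z)).trans (he2 j hj2 (e1 z))

/-- **D4 (b)**, for any `M = N ∏_{j ∈ Q} p j` and any `θQ = θ` modified to `α` on `Q` -/
theorem descent_of_schema' (hinj : Function.Injective p) (hD2 : D2Schema R p hp hinj)
    {N : ℕ} (hN : N ≠ 0) (θ α : J → IsLocalRing.ResidueField R) (Q : List J) (hQ : Q.Nodup)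
    (hQN : ∀ j ∈ Q, ¬ p j ∣ N) (hgood : ∀ j ∈ Q, Good R p θ α j)
    (M : ℕ) (hM : M = N * (Q.map p).prod) (θQ : J → IsLocalRing.ResidueField R)
    (hθQ : ∀ j, θQ j = if j ∈ Q then α j else θ j) :
    ∃ e : LocalizedModule (Sθ θQ) (HL R p hp M) ≃ₗ[R] LocalizedModule (Sθ θ) (HL R p hp N),
      ∀ j, j ∉ Q → ∀ z, e ((MvPolynomial.X j : MvPolynomial J R) • z) =
        (MvPolynomial.X j : MvPolynomial J R) • e z := by
  have h1 : M = lvl p N Q := by rw [hM, lvl_eq]
  have h2 : θQ = thetaL θ α Q := funext fun j => by rw [hθQ, thetaL_apply]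
  subst h1 h2
  exact descent_of_schema R p hp hinj hD2 hN θ α Q hQ hQN hgood

/-! ### the descent, with D2 = helper6's `HenselLoc.exists_equiv_update` -/

/-- **D2 at every level** : helper6's `HenselLoc.exists_equiv_update` at `H = Hom(Γ₀(M), R)`
(finite over `R` by `finite_hom`). -/
theorem d2Schema [IsNoetherianRing R] [IsAdicComplete (IsLocalRing.maximalIdeal R) R]
    (hinj : Function.Injective p) : D2Schema R p hp hinj := by
  intro M hM j₀ hqM θ a hθ ha hne
  have : NeZero M := ⟨hM⟩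
  have : Module.Finite R (Additive (Gamma0 M) →+ R) := finite_hom R R M
  exact Fermat.Agent.S43.Hecke.Descent.HenselLoc.exists_equiv_update
    (hyp R R p hp j₀ hqM (fun _ hj h => hj (hinj h))) θ a hθ ha hne

/-- **D4 (b), THE TAYLOR-WILES DESCENT** over a complete noetherian local ring `R`: for a nodup
list `Q` of indices with `p j ∤ N` and the Taylor-Wiles conditions `Good` at every `j ∈ Q`,
`Hom(Γ₀(N ∏_{j ∈ Q} p j), R)_{θ_Q} ≃ₗ[R] Hom(Γ₀(N), R)_θ`, compatibly with `τ_{p j}`, `j ∉ Q`. -/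
theorem descent [IsNoetherianRing R] [IsAdicComplete (IsLocalRing.maximalIdeal R) R]
    (hinj : Function.Injective p) {N : ℕ} (hN : N ≠ 0)
    (θ α : J → IsLocalRing.ResidueField R) (Q : List J) (hQ : Q.Nodup)
    (hQN : ∀ j ∈ Q, ¬ p j ∣ N) (hgood : ∀ j ∈ Q, Good R p θ α j) :
    ∃ e : LocalizedModule (Sθ (thetaL θ α Q)) (HL R p hp (lvl p N Q)) ≃ₗ[R]
        LocalizedModule (Sθ θ) (HL R p hp N),
      ∀ j, j ∉ Q → ∀ z, e ((MvPolynomial.X j : MvPolynomial J R) • z) =
        (MvPolynomial.X j : MvPolynomial J R) • e z :=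
  descent_of_schema R p hp hinj (d2Schema R p hp hinj) hN θ α Q hQ hQN hgood

/-- **D4 (b)**, for any `M = N ∏_{j ∈ Q} p j` and any `θQ = θ` modified to `α` on `Q`. -/
theorem descent' [IsNoetherianRing R] [IsAdicComplete (IsLocalRing.maximalIdeal R) R]
    (hinj : Function.Injective p) {N : ℕ} (hN : N ≠ 0)
    (θ α : J → IsLocalRing.ResidueField R) (Q : List J) (hQ : Q.Nodup)
    (hQN : ∀ j ∈ Q, ¬ p j ∣ N) (hgood : ∀ j ∈ Q, Good R p θ α j)
    (M : ℕ) (hM : M = N * (Q.map p).prod) (θQ : J → IsLocalRing.ResidueField R)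
    (hθQ : ∀ j, θQ j = if j ∈ Q then α j else θ j) :
    ∃ e : LocalizedModule (Sθ θQ) (HL R p hp M) ≃ₗ[R] LocalizedModule (Sθ θ) (HL R p hp N),
      ∀ j, j ∉ Q → ∀ z, e ((MvPolynomial.X j : MvPolynomial J R) • z) =
        (MvPolynomial.X j : MvPolynomial J R) • e z :=
  descent_of_schema' R p hp hinj (d2Schema R p hp hinj) hN θ α Q hQ hQN hgood M hM θQ hθQ

end Iterate

end Fermat.Agent.S43.Hecke.Descent.Main
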